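import Mathlib

/-!
# TW / TR : two-dimensional pseudo-characters over a commutative ring in which `2` is invertible

Port of `GAL/PC/PseudoRep.lean` (fields) to commutative rings.

`t : G → K`, `c : G →* K` with `t 1 = 2`, `t σ * t τ = t (σ τ) + c τ * t (σ τ⁻¹)`,
`t (σ τ) = t (τ σ)`, and `c₀ ∈ G` with `c₀² = 1`, `c c₀ = -1`; `i2 : K` with `i2 * 2 = 1`.
We construct the functions `a, d, x` of Wiles and prove all their identities.  If some value
`x σ₀ τ₀` is a unit we get an explicit representation by `2 × 2` matrices with trace `t` and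
determinant `c`, with `ρ c₀ = diag (1, -1)`, whose matrix entries are `g ↦ t (g z)` for fixed `z`
in the group algebra.
-/

set_option autoImplicit false

namespace Fermat.Agent.TW.TR

open MonoidAlgebra

variable {K : Type*} [CommRing K] {G : Type*} [Group G]

/-- A two-dimensional pseudo-character `t` with determinant `c`. -/
structure IsPseudo (t : G → K) (c : G →* K) : Prop where
  one : t 1 = 2
  mul : ∀ σ τ, t σ * t τ = t (σ * τ) + c τ * t (σ * τ⁻¹)
  comm : ∀ σ τ, t (σ * τ) = t (τ * σ)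

/-- linear extension of `t` to the group algebra -/
noncomputable def tl (t : G → K) : MonoidAlgebra K G →ₗ[K] K :=
  (MonoidAlgebra.basis G K).constr K t

@[simp] theorem tl_of (t : G → K) (σ : G) : tl t (MonoidAlgebra.of K G σ) = t σ := by
  have := (MonoidAlgebra.basis G K).constr_basis K t σ
  rw [MonoidAlgebra.basis_apply] at this
  simpa [tl] using this

/-- the involution `g ↦ c g • g⁻¹`, extended linearly -/
noncomputable def st (c : G →* K) : MonoidAlgebra K G →ₗ[K] MonoidAlgebra K G :=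
  (MonoidAlgebra.basis G K).constr K fun g => c g • MonoidAlgebra.of K G g⁻¹

@[simp] theorem st_of (c : G →* K) (σ : G) :
    st c (MonoidAlgebra.of K G σ) = c σ • MonoidAlgebra.of K G σ⁻¹ := by
  have := (MonoidAlgebra.basis G K).constr_basis K
    (fun g => c g • MonoidAlgebra.of K G g⁻¹) σ
  rw [MonoidAlgebra.basis_apply] at this
  simpa [st] using this

variable {t : G → K} {c : G →* K}

theorem IsPseudo.tl_comm (h : IsPseudo t c) (x y : MonoidAlgebra K G) :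
    tl t (x * y) = tl t (y * x) := by
  induction x using MonoidAlgebra.induction_on with
  | of g =>
    induction y using MonoidAlgebra.induction_on with
    | of g' => rw [← map_mul, ← map_mul, tl_of, tl_of, h.comm]
    | add y₁ y₂ h₁ h₂ => rw [mul_add, add_mul, map_add, map_add, h₁, h₂]
    | smul r y hy => rw [mul_smul_comm, smul_mul_assoc, map_smul, map_smul, hy]
  | add x₁ x₂ h₁ h₂ => rw [mul_add, add_mul, map_add, map_add, h₁, h₂]
  | smul r x hx => rw [mul_smul_comm, smul_mul_assoc, map_smul, map_smul, hx]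

theorem IsPseudo.tl_mul_st (h : IsPseudo t c) (x y : MonoidAlgebra K G) :
    tl t (x * y) + tl t (x * st c y) = tl t x * tl t y := by
  induction x using MonoidAlgebra.induction_on with
  | of g =>
    induction y using MonoidAlgebra.induction_on with
    | of g' =>
      rw [st_of, mul_smul_comm, map_smul, ← map_mul, ← map_mul, tl_of, tl_of, tl_of, tl_of,
        h.mul, smul_eq_mul]
    | add y₁ y₂ h₁ h₂ =>
      rw [map_add, mul_add, mul_add, map_add, map_add, map_add, mul_add, ← h₁, ← h₂]; ring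
    | smul r y hy =>
      rw [map_smul, mul_smul_comm, mul_smul_comm, map_smul, map_smul, map_smul, smul_eq_mul,
        smul_eq_mul, smul_eq_mul, mul_left_comm, ← hy]; ring
  | add x₁ x₂ h₁ h₂ =>
    rw [add_mul, add_mul, map_add, map_add, map_add, add_mul, ← h₁, ← h₂]; ring
  | smul r x hx =>
    rw [smul_mul_assoc, smul_mul_assoc, map_smul, map_smul, map_smul, smul_eq_mul,
      smul_eq_mul, smul_eq_mul, mul_assoc, ← hx]; ring

theorem st_of_mul (c : G →* K) (g : G) (y : MonoidAlgebra K G) :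
    st c (MonoidAlgebra.of K G g * y) = st c y * (c g • MonoidAlgebra.of K G g⁻¹) := by
  induction y using MonoidAlgebra.induction_on with
  | of g' =>
    rw [← map_mul, st_of, st_of, map_mul, mul_inv_rev, map_mul, smul_mul_smul_comm, mul_comm]
  | add y₁ y₂ h₁ h₂ => rw [mul_add, map_add, map_add, add_mul, h₁, h₂]
  | smul r y hy => rw [mul_smul_comm, map_smul, map_smul, smul_mul_assoc, hy]

theorem st_mul_of (c : G →* K) (g : G) (y : MonoidAlgebra K G) :
    st c (y * MonoidAlgebra.of K G g) = (c g • MonoidAlgebra.of K G g⁻¹) * st c y := by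
  induction y using MonoidAlgebra.induction_on with
  | of g' =>
    rw [← map_mul, st_of, st_of, map_mul, mul_inv_rev, map_mul, smul_mul_smul_comm,
      mul_comm (c g')]
  | add y₁ y₂ h₁ h₂ => rw [add_mul, map_add, map_add, mul_add, h₁, h₂]
  | smul r y hy => rw [smul_mul_assoc, map_smul, map_smul, mul_smul_comm, hy]

/-- the idempotent `(1 + c₀)/2` -/
noncomputable def e1 (i2 : K) (c₀ : G) : MonoidAlgebra K G :=
  i2 • (1 + MonoidAlgebra.of K G c₀)

/-- the idempotent `(1 - c₀)/2` -/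
noncomputable def e2 (i2 : K) (c₀ : G) : MonoidAlgebra K G :=
  i2 • (1 - MonoidAlgebra.of K G c₀)

section Idem

variable {i2 : K} {c₀ : G} (h2 : i2 * 2 = 1) (hc₀ : c₀ * c₀ = 1)
include h2

theorem e1_add_e2 : e1 i2 c₀ + e2 i2 c₀ = 1 := by
  rw [e1, e2, ← smul_add, add_add_sub_cancel, ← two_smul K (1 : MonoidAlgebra K G), smul_smul,
    h2, one_smul]

include hc₀

omit h2 in
theorem of_mul_of_self : MonoidAlgebra.of K G c₀ * MonoidAlgebra.of K G c₀ = 1 := by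
  rw [← map_mul, hc₀, map_one]

theorem e1_mul_e1 : e1 i2 c₀ * e1 i2 c₀ = e1 i2 c₀ := by
  have h := of_mul_of_self (K := K) hc₀
  have h4 : (i2 * i2 : K) * 2 = i2 := by rw [mul_assoc, h2, mul_one]
  rw [e1, smul_mul_smul_comm]
  have : (1 + MonoidAlgebra.of K G c₀) * (1 + MonoidAlgebra.of K G c₀)
      = (2 : K) • (1 + MonoidAlgebra.of K G c₀) := by
    rw [add_mul, mul_add, mul_add, h, one_mul, mul_one, one_mul, two_smul]; abel
  rw [this, smul_smul, h4]

theorem e2_mul_e2 : e2 i2 c₀ * e2 i2 c₀ = e2 i2 c₀ := by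
  have h := of_mul_of_self (K := K) hc₀
  have h4 : (i2 * i2 : K) * 2 = i2 := by rw [mul_assoc, h2, mul_one]
  rw [e2, smul_mul_smul_comm]
  have : (1 - MonoidAlgebra.of K G c₀) * (1 - MonoidAlgebra.of K G c₀)
      = (2 : K) • (1 - MonoidAlgebra.of K G c₀) := by
    rw [sub_mul, mul_sub, mul_sub, h, one_mul, mul_one, one_mul, two_smul]; abel
  rw [this, smul_smul, h4]

omit h2 in
theorem e1_mul_e2 : e1 i2 c₀ * e2 i2 c₀ = 0 := by
  have h := of_mul_of_self (K := K) hc₀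
  rw [e1, e2, smul_mul_smul_comm]
  have : (1 + MonoidAlgebra.of K G c₀) * (1 - MonoidAlgebra.of K G c₀) = 0 := by
    rw [add_mul, mul_sub, mul_sub, h, one_mul, mul_one, one_mul]; abel
  rw [this, smul_zero]

omit h2 in
theorem e2_mul_e1 : e2 i2 c₀ * e1 i2 c₀ = 0 := by
  have h := of_mul_of_self (K := K) hc₀
  rw [e1, e2, smul_mul_smul_comm]
  have : (1 - MonoidAlgebra.of K G c₀) * (1 + MonoidAlgebra.of K G c₀) = 0 := by
    rw [sub_mul, mul_add, mul_add, h, one_mul, mul_one, one_mul]; abel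
  rw [this, smul_zero]

end Idem

section Main

variable {i2 : K} {c₀ : G} (h : IsPseudo t c) (h2 : i2 * 2 = 1) (hc₀ : c₀ * c₀ = 1)
  (hcc : c c₀ = -1)

include hc₀ hcc

theorem st_e1_mul (y : MonoidAlgebra K G) : st c (e1 i2 c₀ * y) = st c y * e2 i2 c₀ := by
  have hinv : c₀⁻¹ = c₀ := inv_eq_of_mul_eq_one_left hc₀
  rw [e1, e2, smul_mul_assoc, map_smul, add_mul, one_mul, map_add, st_of_mul, hcc, hinv,
    mul_smul_comm i2, mul_sub, mul_one, neg_smul, one_smul, mul_neg, sub_eq_add_neg]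

theorem st_mul_e1 (y : MonoidAlgebra K G) : st c (y * e1 i2 c₀) = e2 i2 c₀ * st c y := by
  have hinv : c₀⁻¹ = c₀ := inv_eq_of_mul_eq_one_left hc₀
  rw [e1, e2, mul_smul_comm, map_smul, mul_add, mul_one, map_add, st_mul_of, hcc, hinv,
    smul_mul_assoc i2, sub_mul, one_mul, neg_smul, one_smul, neg_mul, sub_eq_add_neg]

theorem st_e2_mul (y : MonoidAlgebra K G) : st c (e2 i2 c₀ * y) = st c y * e1 i2 c₀ := by
  have hinv : c₀⁻¹ = c₀ := inv_eq_of_mul_eq_one_left hc₀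
  rw [e1, e2, smul_mul_assoc, map_smul, sub_mul, one_mul, map_sub, st_of_mul, hcc, hinv,
    mul_smul_comm i2, mul_add, mul_one, neg_smul, one_smul, mul_neg, sub_neg_eq_add]

theorem st_mul_e2 (y : MonoidAlgebra K G) : st c (y * e2 i2 c₀) = e1 i2 c₀ * st c y := by
  have hinv : c₀⁻¹ = c₀ := inv_eq_of_mul_eq_one_left hc₀
  rw [e1, e2, mul_smul_comm, map_smul, mul_sub, mul_one, map_sub, st_mul_of, hcc, hinv,
    smul_mul_assoc i2, add_mul, one_mul, neg_smul, one_smul, neg_mul, sub_neg_eq_add]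

include h h2

/-- `e₁ y e₁ ≡ t(e₁ y) e₁` modulo the kernel of the pseudo-character. -/
theorem L1 (y z : MonoidAlgebra K G) :
    tl t (z * (e1 i2 c₀ * y * e1 i2 c₀)) = tl t (e1 i2 c₀ * y) * tl t (z * e1 i2 c₀) := by
  have h1 := h.tl_mul_st (z * e1 i2 c₀) (e1 i2 c₀ * y * e1 i2 c₀)
  rw [st_mul_e1 hc₀ hcc, st_e1_mul hc₀ hcc] at h1
  have h3 : z * e1 i2 c₀ * (e2 i2 c₀ * (st c y * e2 i2 c₀)) = 0 := by
    rw [mul_assoc z, ← mul_assoc (e1 i2 c₀), e1_mul_e2 hc₀, zero_mul, mul_zero]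
  have h4 : z * e1 i2 c₀ * (e1 i2 c₀ * y * e1 i2 c₀) = z * (e1 i2 c₀ * y * e1 i2 c₀) := by
    rw [mul_assoc z, mul_assoc (e1 i2 c₀) y, ← mul_assoc (e1 i2 c₀) (e1 i2 c₀),
      e1_mul_e1 h2 hc₀]
  have h5 : tl t (e1 i2 c₀ * y * e1 i2 c₀) = tl t (e1 i2 c₀ * y) := by
    rw [h.tl_comm, ← mul_assoc, e1_mul_e1 h2 hc₀]
  rw [h3, h4, h5, map_zero, add_zero] at h1
  rw [h1, mul_comm]

theorem L2 (y z : MonoidAlgebra K G) :
    tl t (z * (e2 i2 c₀ * y * e2 i2 c₀)) = tl t (e2 i2 c₀ * y) * tl t (z * e2 i2 c₀) := by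
  have h1 := h.tl_mul_st (z * e2 i2 c₀) (e2 i2 c₀ * y * e2 i2 c₀)
  rw [st_mul_e2 hc₀ hcc, st_e2_mul hc₀ hcc] at h1
  have h3 : z * e2 i2 c₀ * (e1 i2 c₀ * (st c y * e1 i2 c₀)) = 0 := by
    rw [mul_assoc z, ← mul_assoc (e2 i2 c₀), e2_mul_e1 hc₀, zero_mul, mul_zero]
  have h4 : z * e2 i2 c₀ * (e2 i2 c₀ * y * e2 i2 c₀) = z * (e2 i2 c₀ * y * e2 i2 c₀) := by
    rw [mul_assoc z, mul_assoc (e2 i2 c₀) y, ← mul_assoc (e2 i2 c₀) (e2 i2 c₀),
      e2_mul_e2 h2 hc₀]
  have h5 : tl t (e2 i2 c₀ * y * e2 i2 c₀) = tl t (e2 i2 c₀ * y) := by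
    rw [h.tl_comm, ← mul_assoc, e2_mul_e2 h2 hc₀]
  rw [h3, h4, h5, map_zero, add_zero] at h1
  rw [h1, mul_comm]

end Main

/-- abstract setting for the identities between the functions `a, d, x` -/
structure Setup {B : Type*} [Ring B] (T : B → K) (E₁ E₂ : B) : Prop where
  add : ∀ x y, T (x + y) = T x + T y
  comm : ∀ x y, T (x * y) = T (y * x)
  sum : E₁ + E₂ = 1
  L1 : ∀ y z, T (z * (E₁ * y * E₁)) = T (E₁ * y) * T (z * E₁)
  L2 : ∀ y z, T (z * (E₂ * y * E₂)) = T (E₂ * y) * T (z * E₂)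

namespace Setup

variable {B : Type*} [Ring B] {T : B → K} {E₁ E₂ : B} (s : Setup T E₁ E₂)
include s

theorem split_mid (u v : B) : u * v = u * E₁ * v + u * E₂ * v := by
  rw [← add_mul, ← mul_add, s.sum, mul_one]

theorem I1 (y z : B) :
    T (E₁ * (y * z)) = T (E₁ * y) * T (E₁ * z) + T (E₁ * y * E₂ * z) := by
  rw [← mul_assoc, s.split_mid (E₁ * y) z, s.add, s.comm (E₁ * y * E₁) z, s.L1, s.comm z]

theorem I2 (y z : B) :
    T (E₂ * (y * z)) = T (E₂ * y) * T (E₂ * z) + T (E₁ * z * E₂ * y) := by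
  have e : T (E₂ * y * E₁ * z) = T (E₁ * z * E₂ * y) := by
    have := s.comm (E₂ * y) (E₁ * z); simpa only [mul_assoc] using this
  rw [← mul_assoc, s.split_mid (E₂ * y) z, s.add, s.comm (E₂ * y * E₂) z, s.L2, s.comm z E₂,
    add_comm, e]

theorem I3 (y z α β : B) :
    T (E₁ * y * E₂ * z) * T (E₁ * α * E₂ * β) = T (E₁ * y * E₂ * β) * T (E₁ * α * E₂ * z) := by
  have h1 : T ((α * E₂ * β) * (E₁ * (y * E₂ * z) * E₁)) =
      T (E₁ * y * E₂ * z) * T (E₁ * α * E₂ * β) := by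
    rw [s.L1, s.comm (α * E₂ * β) E₁]
    simp only [mul_assoc]
  have h2 : T ((β * E₁ * y) * (E₂ * (z * E₁ * α) * E₂)) =
      T (E₁ * α * E₂ * z) * T (E₁ * y * E₂ * β) := by
    have e1 : T (E₂ * (z * E₁ * α)) = T (E₁ * α * E₂ * z) := by
      have := s.comm (E₂ * z) (E₁ * α); simpa only [mul_assoc] using this
    have e2 : T (β * E₁ * y * E₂) = T (E₁ * y * E₂ * β) := by
      have := s.comm β (E₁ * y * E₂); simpa only [mul_assoc] using this
    rw [s.L2, e1, e2]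
  have h3 : T ((α * E₂ * β) * (E₁ * (y * E₂ * z) * E₁)) =
      T ((β * E₁ * y) * (E₂ * (z * E₁ * α) * E₂)) := by
    have := s.comm (α * E₂) (β * E₁ * y * E₂ * z * E₁); simpa only [mul_assoc] using this
  rw [← h1, h3, h2, mul_comm]

theorem I4 (y z w : B) :
    T (E₁ * (y * z) * E₂ * w) =
      T (E₁ * y) * T (E₁ * z * E₂ * w) + T (E₁ * y * E₂ * w) * T (E₂ * z) := by
  have e0 : E₁ * (y * z) * E₂ * w = E₁ * y * E₁ * (z * E₂ * w) + E₁ * y * E₂ * (z * E₂ * w) := by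
    rw [← s.split_mid]; simp only [mul_assoc]
  have e1 : T (E₁ * y * E₁ * (z * E₂ * w)) = T (E₁ * y) * T (E₁ * z * E₂ * w) := by
    rw [s.comm, s.L1, s.comm (z * E₂ * w) E₁]; simp only [mul_assoc]
  have e2 : T (E₁ * y * E₂ * (z * E₂ * w)) = T (E₁ * y * E₂ * w) * T (E₂ * z) := by
    have e3 : T (E₁ * y * E₂ * (z * E₂ * w)) = T ((w * E₁ * y) * (E₂ * z * E₂)) := by
      have := s.comm (E₁ * y * E₂ * z * E₂) w; simpa only [mul_assoc] using this
    have e4 : T (w * E₁ * y * E₂) = T (E₁ * y * E₂ * w) := by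
      have := s.comm w (E₁ * y * E₂); simpa only [mul_assoc] using this
    rw [e3, s.L2, e4, mul_comm]
  rw [e0, s.add, e1, e2]

theorem I5 (w y z : B) :
    T (E₁ * w * E₂ * (y * z)) =
      T (E₁ * w * E₂ * y) * T (E₁ * z) + T (E₂ * y) * T (E₁ * w * E₂ * z) := by
  have e0 : E₁ * w * E₂ * (y * z) = E₁ * w * E₂ * y * E₁ * z + E₁ * w * E₂ * y * E₂ * z := by
    rw [← s.split_mid]; simp only [mul_assoc]
  have e1 : T (E₁ * w * E₂ * y * E₁ * z) = T (E₁ * w * E₂ * y) * T (E₁ * z) := by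
    have e3 : T (E₁ * w * E₂ * y * E₁ * z) = T ((w * E₂ * y) * (E₁ * z * E₁)) := by
      have := s.comm E₁ (w * E₂ * y * E₁ * z); simpa only [mul_assoc] using this
    have e4 : T (w * E₂ * y * E₁) = T (E₁ * w * E₂ * y) := by
      have := s.comm (w * E₂ * y) E₁; simpa only [mul_assoc] using this
    rw [e3, s.L1, e4, mul_comm]
  have e2 : T (E₁ * w * E₂ * y * E₂ * z) = T (E₂ * y) * T (E₁ * w * E₂ * z) := by
    have e3 : T (E₁ * w * E₂ * y * E₂ * z) = T ((z * E₁ * w) * (E₂ * y * E₂)) := by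
      have := s.comm (E₁ * w * E₂ * y * E₂) z; simpa only [mul_assoc] using this
    have e4 : T (z * E₁ * w * E₂) = T (E₁ * w * E₂ * z) := by
      have := s.comm z (E₁ * w * E₂); simpa only [mul_assoc] using this
    rw [e3, s.L2, e4]
  rw [e0, s.add, e1, e2]

end Setup

/-- function-level statement: Wiles' identities give a representation (non-split case) -/
theorem repB (a d : G → K) (x : G → G → K)
    (hI1 : ∀ g h, a (g * h) = a g * a h + x g h)
    (hI2 : ∀ g h, d (g * h) = d g * d h + x h g)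
    (hI3 : ∀ g h α β, x g h * x α β = x g β * x α h)
    (hI4 : ∀ g h w, x (g * h) w = a g * x h w + x g w * d h)
    (hI5 : ∀ w g h, x w (g * h) = x w g * a h + d g * x w h)
    (ha1 : a 1 = 1) (hd1 : d 1 = 1) (hx1 : ∀ h, x 1 h = 0) (hx1' : ∀ g, x g 1 = 0)
    (σ₀ τ₀ : G) (u : K) (hu : u * x σ₀ τ₀ = 1) :
    ∃ ρ : G →* Matrix (Fin 2) (Fin 2) K,
      ∀ g, ρ g = !![a g, u * x g τ₀; x σ₀ g, d g] := by
  refine ⟨{ toFun := fun g => !![a g, u * x g τ₀; x σ₀ g, d g]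
            map_one' := ?_
            map_mul' := ?_ }, fun g => rfl⟩
  · rw [ha1, hd1, hx1, hx1', mul_zero, Matrix.one_fin_two]
  · intro g h
    rw [Matrix.mul_fin_two]
    have e1 : u * x g τ₀ * x σ₀ h = x g h := by
      rw [mul_assoc, hI3 g τ₀ σ₀ h, mul_comm (x g h), ← mul_assoc, hu, one_mul]
    have e2 : x σ₀ g * (u * x h τ₀) = x h g := by
      rw [mul_left_comm, mul_comm (x σ₀ g), hI3 h τ₀ σ₀ g, mul_comm (x h g), ← mul_assoc,
        hu, one_mul]
    rw [e1, e2, hI1, hI2, hI4, hI5]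
    congr 1
    · ext i j
      fin_cases i <;> fin_cases j <;> simp <;> ring

/-- Wiles' function `a`. -/
noncomputable def aF (t : G → K) (i2 : K) (c₀ : G) (g : G) : K :=
  tl t (e1 i2 c₀ * MonoidAlgebra.of K G g)

/-- Wiles' function `d`. -/
noncomputable def dF (t : G → K) (i2 : K) (c₀ : G) (g : G) : K :=
  tl t (e2 i2 c₀ * MonoidAlgebra.of K G g)

/-- Wiles' function `x`. -/
noncomputable def xF (t : G → K) (i2 : K) (c₀ : G) (g g' : G) : K :=
  tl t (e1 i2 c₀ * MonoidAlgebra.of K G g * e2 i2 c₀ * MonoidAlgebra.of K G g')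

theorem aF_eq (t : G → K) (i2 : K) (c₀ g : G) : aF t i2 c₀ g = i2 * (t g + t (c₀ * g)) := by
  rw [aF, e1, smul_mul_assoc, map_smul, add_mul, one_mul, map_add, ← map_mul, tl_of, tl_of,
    smul_eq_mul]

theorem dF_eq (t : G → K) (i2 : K) (c₀ g : G) : dF t i2 c₀ g = i2 * (t g - t (c₀ * g)) := by
  rw [dF, e2, smul_mul_assoc, map_smul, sub_mul, one_mul, map_sub, ← map_mul, tl_of, tl_of,
    smul_eq_mul]

theorem xF_eq (t : G → K) (i2 : K) (c₀ g g' : G) :
    xF t i2 c₀ g g' = i2 * i2 * (t (g * g') + t (c₀ * g * g') - t (g * c₀ * g')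
      - t (c₀ * g * c₀ * g')) := by
  have e : e1 i2 c₀ * MonoidAlgebra.of K G g * e2 i2 c₀ * MonoidAlgebra.of K G g' =
      (i2 * i2) • (MonoidAlgebra.of K G (g * g') + MonoidAlgebra.of K G (c₀ * g * g')
        - MonoidAlgebra.of K G (g * c₀ * g') - MonoidAlgebra.of K G (c₀ * g * c₀ * g')) := by
    simp only [e1, e2, map_mul, smul_mul_assoc, mul_smul_comm, smul_smul]
    congr 1
    noncomm_ring
  rw [xF, e, map_smul, map_sub, map_sub, map_add, tl_of, tl_of, tl_of, tl_of, smul_eq_mul]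

section Rep

variable {i2 : K} {c₀ : G} (h : IsPseudo t c) (h2 : i2 * 2 = 1) (hc₀ : c₀ * c₀ = 1)
  (hcc : c c₀ = -1)

include h h2 hc₀ hcc

theorem setup : Setup (tl t) (e1 i2 c₀) (e2 i2 c₀) where
  add := map_add _
  comm := h.tl_comm
  sum := e1_add_e2 h2
  L1 := L1 h h2 hc₀ hcc
  L2 := L2 h h2 hc₀ hcc

theorem t_c₀ : t c₀ = 0 := by
  have h1 := h.mul 1 c₀
  have hinv : c₀⁻¹ = c₀ := inv_eq_of_mul_eq_one_left hc₀
  rw [h.one, one_mul, one_mul, hinv, hcc] at h1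
  have h3 : 2 * t c₀ = 0 := by rw [h1]; ring
  calc t c₀ = i2 * 2 * t c₀ := by rw [h2, one_mul]
    _ = i2 * (2 * t c₀) := by ring
    _ = 0 := by rw [h3, mul_zero]

theorem tl_e1 : tl t (e1 i2 c₀) = 1 := by
  rw [e1, map_smul, map_add, tl_of, t_c₀ h h2 hc₀ hcc, add_zero, ← map_one (MonoidAlgebra.of K G),
    tl_of, h.one, smul_eq_mul, h2]

theorem tl_e2 : tl t (e2 i2 c₀) = 1 := by
  rw [e2, map_smul, map_sub, tl_of, t_c₀ h h2 hc₀ hcc, sub_zero, ← map_one (MonoidAlgebra.of K G),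
    tl_of, h.one, smul_eq_mul, h2]

omit h hc₀ hcc in
theorem aF_add_dF (g : G) : aF t i2 c₀ g + dF t i2 c₀ g = t g := by
  rw [aF, dF, ← map_add, ← add_mul, e1_add_e2 h2, one_mul, tl_of]

theorem aF_mul (g g' : G) :
    aF t i2 c₀ (g * g') = aF t i2 c₀ g * aF t i2 c₀ g' + xF t i2 c₀ g g' := by
  simp only [aF, xF, map_mul (MonoidAlgebra.of K G)]
  exact (setup h h2 hc₀ hcc).I1 _ _

theorem dF_mul (g g' : G) :
    dF t i2 c₀ (g * g') = dF t i2 c₀ g * dF t i2 c₀ g' + xF t i2 c₀ g' g := by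
  simp only [dF, xF, map_mul (MonoidAlgebra.of K G)]
  exact (setup h h2 hc₀ hcc).I2 _ _

theorem xF_mul_xF (g g' α β : G) :
    xF t i2 c₀ g g' * xF t i2 c₀ α β = xF t i2 c₀ g β * xF t i2 c₀ α g' :=
  (setup h h2 hc₀ hcc).I3 _ _ _ _

theorem xF_mul_left (g g' w : G) :
    xF t i2 c₀ (g * g') w = aF t i2 c₀ g * xF t i2 c₀ g' w + xF t i2 c₀ g w * dF t i2 c₀ g' := by
  simp only [aF, dF, xF, map_mul (MonoidAlgebra.of K G)]
  exact (setup h h2 hc₀ hcc).I4 _ _ _

theorem xF_mul_right (w g g' : G) :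
    xF t i2 c₀ w (g * g') = xF t i2 c₀ w g * aF t i2 c₀ g' + dF t i2 c₀ g * xF t i2 c₀ w g' := by
  simp only [aF, dF, xF, map_mul (MonoidAlgebra.of K G)]
  exact (setup h h2 hc₀ hcc).I5 _ _ _

theorem aF_mul_dF_sub (g : G) : aF t i2 c₀ g * dF t i2 c₀ g - xF t i2 c₀ g g = c g := by
  have h1 := h.mul g g
  rw [mul_inv_cancel, h.one, ← aF_add_dF (t := t) h2 (c₀ := c₀) g,
    ← aF_add_dF (t := t) h2 (c₀ := c₀) (g * g), aF_mul h h2 hc₀ hcc, dF_mul h h2 hc₀ hcc] at h1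
  have h3 : 2 * (aF t i2 c₀ g * dF t i2 c₀ g - xF t i2 c₀ g g) = 2 * c g := by
    linear_combination h1
  calc aF t i2 c₀ g * dF t i2 c₀ g - xF t i2 c₀ g g
      = i2 * (2 * (aF t i2 c₀ g * dF t i2 c₀ g - xF t i2 c₀ g g)) := by
        rw [← mul_assoc, h2, one_mul]
    _ = c g := by rw [h3, ← mul_assoc, h2, one_mul]

theorem aF_one : aF t i2 c₀ 1 = 1 := by
  simp only [aF, map_one, mul_one]; exact tl_e1 h h2 hc₀ hcc

theorem dF_one : dF t i2 c₀ 1 = 1 := by
  simp only [dF, map_one, mul_one]; exact tl_e2 h h2 hc₀ hcc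

omit h h2 hcc in
theorem xF_one_left (g : G) : xF t i2 c₀ 1 g = 0 := by
  simp only [xF, map_one, mul_one, e1_mul_e2 hc₀, zero_mul, map_zero]

omit h2 hcc in
theorem xF_one_right (g : G) : xF t i2 c₀ g 1 = 0 := by
  simp only [xF, map_one, mul_one]
  rw [h.tl_comm, ← mul_assoc, e2_mul_e1 hc₀, zero_mul, map_zero]

/-- **Main theorem**: a pseudo-character with an involution of determinant `-1` and a unit value
`x σ₀ τ₀` is the trace of an explicit representation, whose matrix entries are `g ↦ t (g z)` for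
fixed `z` in the group algebra. -/
theorem exists_rep (σ₀ τ₀ : G) (u : K) (hu : u * xF t i2 c₀ σ₀ τ₀ = 1) :
    ∃ (ρ : G →* Matrix (Fin 2) (Fin 2) K) (z : Fin 2 → Fin 2 → MonoidAlgebra K G),
      (∀ g, ρ g = !![aF t i2 c₀ g, u * xF t i2 c₀ g τ₀; xF t i2 c₀ σ₀ g, dF t i2 c₀ g]) ∧
      (∀ g, (ρ g).trace = t g) ∧ (∀ g, (ρ g).det = c g) ∧
      (∀ g i j, ρ g i j = tl t (MonoidAlgebra.of K G g * z i j)) := by
  obtain ⟨ρ, hρ⟩ := repB (aF t i2 c₀) (dF t i2 c₀) (xF t i2 c₀) (aF_mul h h2 hc₀ hcc)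
    (dF_mul h h2 hc₀ hcc) (xF_mul_xF h h2 hc₀ hcc) (xF_mul_left h h2 hc₀ hcc)
    (xF_mul_right h h2 hc₀ hcc) (aF_one h h2 hc₀ hcc) (dF_one h h2 hc₀ hcc)
    (xF_one_left hc₀) (xF_one_right h hc₀) σ₀ τ₀ u hu
  refine ⟨ρ, fun i j => (!![e1 i2 c₀,
        u • (e2 i2 c₀ * MonoidAlgebra.of K G τ₀ * e1 i2 c₀);
        e1 i2 c₀ * MonoidAlgebra.of K G σ₀ * e2 i2 c₀, e2 i2 c₀] :
          Matrix (Fin 2) (Fin 2) (MonoidAlgebra K G)) i j, hρ, fun g => ?_, fun g => ?_,
        fun g i j => ?_⟩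
  · rw [hρ, Matrix.trace_fin_two_of, aF_add_dF h2]
  · rw [hρ, Matrix.det_fin_two_of, ← aF_mul_dF_sub h h2 hc₀ hcc, mul_assoc,
      xF_mul_xF h h2 hc₀ hcc g τ₀ σ₀ g, mul_comm (xF t i2 c₀ g g), ← mul_assoc, hu, one_mul]
  · rw [hρ]
    fin_cases i <;> fin_cases j
    · exact h.tl_comm _ _
    · change u * xF t i2 c₀ g τ₀ = tl t (MonoidAlgebra.of K G g *
        (u • (e2 i2 c₀ * MonoidAlgebra.of K G τ₀ * e1 i2 c₀)))
      rw [mul_smul_comm, map_smul, smul_eq_mul]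
      congr 1
      have := h.tl_comm (e1 i2 c₀) (MonoidAlgebra.of K G g * e2 i2 c₀ * MonoidAlgebra.of K G τ₀)
      simpa only [xF, mul_assoc] using this
    · change xF t i2 c₀ σ₀ g = tl t (MonoidAlgebra.of K G g *
        (e1 i2 c₀ * MonoidAlgebra.of K G σ₀ * e2 i2 c₀))
      exact h.tl_comm _ _
    · exact h.tl_comm _ _

end Rep

end Fermat.Agent.TW.TR
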