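import Fermat.Agent.TW.TR.Pseudo
import Fermat.Agent.S53.MatrixRep
import Fermat.Agent.GAL.PC.TraceForm

/-!
# TW / TR : from a continuous pseudo-character of `G_ℚ` with values in a local ring to a
representation

`T` a local ring in which `2` is invertible (`i2 * 2 = 1`), `t : G_ℚ → T`, `c : G_ℚ →* T` a
two-dimensional pseudo-character (`IsPseudo`), `c₀` an involution with `c c₀ = -1`.

* `exists_isUnit_xF` : if the reduction of `t` is the trace of an absolutely irreducible residual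
  representation then some value `xF t i2 c₀ σ₀ τ₀` of Wiles' function `x` is a unit.
* `exists_matRep` : if some `xF t i2 c₀ σ₀ τ₀` is a unit and `t` is continuous, there is a
  continuous matrix representation `r : G_ℚ →* M₂(T)` with trace `t`, determinant `c`,
  `r c₀ = diag (1, -1)`, with the explicit entries `a, u x(·,τ₀), x(σ₀,·), d`.
* `exists_galoisRepAdic` : the same as a `GaloisRepAdic T`, with characteristic polynomials and
  absolutely irreducible residual representation.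
No reducedness, noetherianity or completeness of `T` is used.
-/

set_option autoImplicit false

open IsLocalRing Polynomial

namespace Fermat.Agent.TW.TR

open Fermat.Agent.S53 (GQ M2 MatCont ofMat HasMatrix)

local notation "Qbar" => AlgebraicClosure ℚ

section General

variable {K : Type*} [CommRing K] {G : Type*} [Group G] {t : G → K} {c : G →* K}

theorem tl_of_mul_sub_mem (I : Ideal K) (σ : G) (hσ : ∀ g, t (σ * g) - t g ∈ I)
    (z : MonoidAlgebra K G) : tl t (MonoidAlgebra.of K G σ * z) - tl t z ∈ I := by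
  induction z using MonoidAlgebra.induction_on with
  | of g => rw [← map_mul, tl_of, tl_of]; exact hσ g
  | add y₁ y₂ h₁ h₂ =>
    rw [mul_add, map_add, map_add, add_sub_add_comm]
    exact I.add_mem h₁ h₂
  | smul r y hy =>
    rw [mul_smul_comm, map_smul, map_smul, ← smul_sub, smul_eq_mul]
    exact I.mul_mem_left _ hy

variable {i2 : K} {c₀ : G}

theorem aF_c₀ (h : IsPseudo t c) (h2 : i2 * 2 = 1) (hc₀ : c₀ * c₀ = 1) (hcc : c c₀ = -1) :
    aF t i2 c₀ c₀ = 1 := by
  rw [aF_eq, hc₀, h.one, t_c₀ h h2 hc₀ hcc, zero_add, h2]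

theorem dF_c₀ (h : IsPseudo t c) (h2 : i2 * 2 = 1) (hc₀ : c₀ * c₀ = 1) (hcc : c c₀ = -1) :
    dF t i2 c₀ c₀ = -1 := by
  rw [dF_eq, hc₀, h.one, t_c₀ h h2 hc₀ hcc, zero_sub, mul_neg, h2]

theorem xF_c₀_left (hc₀ : c₀ * c₀ = 1) (g : G) : xF t i2 c₀ c₀ g = 0 := by
  rw [xF_eq, hc₀, one_mul, one_mul]
  ring

theorem xF_c₀_right (h : IsPseudo t c) (hc₀ : c₀ * c₀ = 1) (g : G) : xF t i2 c₀ g c₀ = 0 := by
  rw [xF_eq, mul_assoc g c₀ c₀, hc₀, mul_one, h.comm (c₀ * g) c₀, ← mul_assoc, hc₀, one_mul,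
    mul_assoc (c₀ * g) c₀ c₀, hc₀, mul_one, h.comm c₀ g]
  ring

end General

section Irr

/-- A matrix representation over a field (`2 ≠ 0`) with `m c₀ = diag (1, -1)` and non-zero
off-diagonal entries somewhere has no stable line. -/
theorem irreducible_of_matrix {K V G : Type*} [Field K] [AddCommGroup V] [Module K V] [Monoid G]
    (b : Module.Basis (Fin 2) K V) (r : G →* Module.End K V) (h2 : (2 : K) ≠ 0) (c₀ σ₀ τ₀ : G)
    (hc : LinearMap.toMatrix b b (r c₀) = !![1, 0; 0, -1])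
    (h01 : LinearMap.toMatrix b b (r σ₀) 0 1 ≠ 0) (h10 : LinearMap.toMatrix b b (r τ₀) 1 0 ≠ 0)
    (W : Submodule K V) (hW : ∀ g, ∀ x ∈ W, r g x ∈ W) : W = ⊥ ∨ W = ⊤ := by
  classical
  have hb0 : r c₀ (b 0) = b 0 := by
    have := LinearMap.toMatrix_mulVec_repr b b (r c₀) (b 0)
    apply b.repr.injective
    ext i
    have h1 := congrFun this i
    rw [hc] at h1
    rw [← h1]
    fin_cases i <;> simp [Matrix.mulVec, dotProduct, Finsupp.single_apply]
  have hb1 : r c₀ (b 1) = - b 1 := by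
    have := LinearMap.toMatrix_mulVec_repr b b (r c₀) (b 1)
    apply b.repr.injective
    ext i
    have h1 := congrFun this i
    rw [hc] at h1
    rw [← h1]
    fin_cases i <;> simp [Matrix.mulVec, dotProduct, Finsupp.single_apply]
  have hexp : ∀ g (j : Fin 2), r g (b j) =
      LinearMap.toMatrix b b (r g) 0 j • b 0 + LinearMap.toMatrix b b (r g) 1 j • b 1 := by
    intro g j
    conv_lhs => rw [← b.sum_repr (r g (b j))]
    rw [Fin.sum_univ_two, LinearMap.toMatrix_apply, LinearMap.toMatrix_apply]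
  -- if `b 0 ∈ W` or `b 1 ∈ W` then `W = ⊤`
  have htop : b 0 ∈ W → b 1 ∈ W → W = ⊤ := by
    intro h0 h1
    rw [eq_top_iff, ← b.span_eq, Submodule.span_le]
    rintro _ ⟨i, rfl⟩
    fin_cases i
    · exact h0
    · exact h1
  have h0top : b 0 ∈ W → W = ⊤ := by
    intro h0
    refine htop h0 ?_
    have h3 := hW τ₀ _ h0
    rw [hexp] at h3
    have h4 : LinearMap.toMatrix b b (r τ₀) 1 0 • b 1 ∈ W := by
      have := W.sub_mem h3 (W.smul_mem (LinearMap.toMatrix b b (r τ₀) 0 0) h0)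
      simpa using this
    exact (W.smul_mem_iff h10).1 h4
  have h1top : b 1 ∈ W → W = ⊤ := by
    intro h1
    refine htop ?_ h1
    have h3 := hW σ₀ _ h1
    rw [hexp] at h3
    have h4 : LinearMap.toMatrix b b (r σ₀) 0 1 • b 0 ∈ W := by
      have := W.sub_mem h3 (W.smul_mem (LinearMap.toMatrix b b (r σ₀) 1 1) h1)
      simpa using this
    exact (W.smul_mem_iff h01).1 h4
  by_cases hbot : W = ⊥
  · exact Or.inl hbot
  right
  obtain ⟨w, hw, hw0⟩ := (Submodule.ne_bot_iff W).1 hbot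
  have hwexp : w = b.repr w 0 • b 0 + b.repr w 1 • b 1 := by
    conv_lhs => rw [← b.sum_repr w]
    rw [Fin.sum_univ_two]
  have hcw : r c₀ w = b.repr w 0 • b 0 - b.repr w 1 • b 1 := by
    conv_lhs => rw [hwexp]
    rw [map_add, map_smul, map_smul, hb0, hb1, smul_neg, sub_eq_add_neg]
  have hcwW := hW c₀ w hw
  by_cases hz : b.repr w 0 = 0
  · have hz1 : b.repr w 1 ≠ 0 := by
      intro h1
      apply hw0
      rw [hwexp, hz, h1, zero_smul, zero_smul, add_zero]
    apply h1top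
    rw [hwexp, hz, zero_smul, zero_add] at hw
    exact (W.smul_mem_iff hz1).1 hw
  · apply h0top
    have h5 : (2 * b.repr w 0) • b 0 ∈ W := by
      have := W.add_mem hw hcwW
      rw [hcw] at this
      have e0 : ∀ α β : K, (α • b 0 + β • b 1) + (α • b 0 - β • b 1) = (2 * α) • b 0 := by
        intro α β
        rw [mul_smul, two_smul]
        abel
      have e : w + (b.repr w 0 • b 0 - b.repr w 1 • b 1) = (2 * b.repr w 0) • b 0 := by
        rw [← e0 (b.repr w 0) (b.repr w 1), ← hwexp]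
      rwa [e] at this
    exact (W.smul_mem_iff (mul_ne_zero h2 hz)).1 h5

end Irr

variable {T : Type} [CommRing T] [IsLocalRing T]

/-- continuity of a function on `G_ℚ` with values in the local ring `T`. -/
def IsCont (t : GQ → T) : Prop :=
  ∀ n : ℕ, ∃ L : IntermediateField ℚ Qbar, FiniteDimensional ℚ L ∧
    ∀ τ : GQ, (∀ x ∈ L, τ x = x) → ∀ σ : GQ, t (σ * τ) - t σ ∈ maximalIdeal T ^ n

variable {t : GQ → T} {c : GQ →* T} {i2 : T} {c₀ : GQ}

/-- **[TR], matrix form.** -/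
theorem exists_matRep (h : IsPseudo t c) (h2 : i2 * 2 = 1) (hc₀ : c₀ * c₀ = 1) (hcc : c c₀ = -1)
    (hcont : IsCont t) (σ₀ τ₀ : GQ) (u : T) (hu : u * xF t i2 c₀ σ₀ τ₀ = 1) :
    ∃ r : GQ →* M2 T, MatCont T r ∧
      (∀ g, r g = !![aF t i2 c₀ g, u * xF t i2 c₀ g τ₀; xF t i2 c₀ σ₀ g, dF t i2 c₀ g]) ∧
      (∀ g, (r g).trace = t g) ∧ (∀ g, (r g).det = c g) ∧ r c₀ = !![1, 0; 0, -1] := by
  obtain ⟨r, z, hr, htr, hdet, hz⟩ := exists_rep h h2 hc₀ hcc σ₀ τ₀ u hu
  refine ⟨r, ?_, hr, htr, hdet, ?_⟩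
  · intro n
    obtain ⟨L, hL, h1⟩ := hcont n
    refine ⟨L, hL, fun σ hσ i j => ?_⟩
    have e : (r σ - 1) i j = tl t (MonoidAlgebra.of T GQ σ * z i j) - tl t (z i j) := by
      rw [Matrix.sub_apply, hz, ← map_one r, hz, map_one, one_mul]
    rw [e]
    refine tl_of_mul_sub_mem _ σ (fun g => ?_) _
    rw [h.comm]
    exact h1 σ hσ g
  · rw [hr, aF_c₀ h h2 hc₀ hcc, dF_c₀ h h2 hc₀ hcc, xF_c₀_left hc₀, xF_c₀_right h hc₀, mul_zero]

theorem charpoly_ofMat (r : GQ →* M2 T) (hr : MatCont T r) (σ : GQ) :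
    LinearMap.charpoly ((ofMat r hr).ρ σ) =
      X ^ 2 - C (r σ).trace * X + C (r σ).det := by
  have h1 : LinearMap.toMatrix (Pi.basisFun T (Fin 2)) (Pi.basisFun T (Fin 2))
      ((ofMat r hr).ρ σ) = r σ := DFunLike.congr_fun (Fermat.Agent.S53.toMat_ofMat r hr) σ
  rw [← LinearMap.charpoly_toMatrix _ (Pi.basisFun T (Fin 2)), h1, Matrix.charpoly_fin_two]

/-- the residual representation of `ofMat r` is absolutely irreducible as soon as
`r c₀ = diag (1, -1)` and `r` has unit off-diagonal entries somewhere. -/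
theorem residual_absIrr_ofMat (h2 : i2 * 2 = 1) (r : GQ →* M2 T) (hr : MatCont T r)
    (σ₀ τ₀ : GQ) (hc : r c₀ = !![1, 0; 0, -1]) (h01 : IsUnit (r σ₀ 0 1))
    (h10 : IsUnit (r τ₀ 1 0)) : (ofMat r hr).residual.IsAbsolutelyIrreducible := by
  classical
  let ρ := ofMat r hr
  let k := ResidueField T
  let kb := AlgebraicClosure k
  let b : Module.Basis (Fin 2) T ρ.V := Pi.basisFun T (Fin 2)
  let bk : Module.Basis (Fin 2) k (TensorProduct T k ρ.V) := Algebra.TensorProduct.basis k b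
  let bkb : Module.Basis (Fin 2) kb (TensorProduct k kb (TensorProduct T k ρ.V)) :=
    Algebra.TensorProduct.basis kb bk
  let φ : T →+* kb := (algebraMap k kb).comp (residue T)
  have hφu : ∀ x : T, IsUnit x → φ x ≠ 0 := fun x hx => (hx.map φ).ne_zero
  let R := ρ.residual.baseChange kb
  have hA : ∀ σ, LinearMap.toMatrix bkb bkb (R.ρ σ) = (r σ).map φ := by
    intro σ
    have h1 : R.ρ σ = ((ρ.ρ σ).baseChange k).baseChange kb := rfl
    have h3 : LinearMap.toMatrix b b (ρ.ρ σ) = r σ :=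
      DFunLike.congr_fun (Fermat.Agent.S53.toMat_ofMat r hr) σ
    rw [h1, LinearMap.toMatrix_baseChange, LinearMap.toMatrix_baseChange, h3, Matrix.map_map]
    rfl
  have h2' : (2 : kb) ≠ 0 := by
    have : IsUnit (2 : T) := IsUnit.of_mul_eq_one i2 (by rw [mul_comm]; exact h2)
    have := hφu 2 this
    rwa [map_ofNat] at this
  intro W hW
  refine irreducible_of_matrix bkb R.ρ h2' c₀ σ₀ τ₀ ?_ ?_ ?_ W hW
  · refine (hA c₀).trans ?_
    rw [hc]
    ext i j
    fin_cases i <;> fin_cases j <;> simp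
  · have := congrFun (congrFun (hA σ₀) 0) 1
    exact this ▸ hφu _ h01
  · have := congrFun (congrFun (hA τ₀) 1) 0
    exact this ▸ hφu _ h10

/-- **[TR]**: a continuous pseudo-character with a unit value of `x` is the trace of a
`GaloisRepAdic T` with absolutely irreducible residual representation. -/
theorem exists_galoisRepAdic (h : IsPseudo t c) (h2 : i2 * 2 = 1) (hc₀ : c₀ * c₀ = 1)
    (hcc : c c₀ = -1) (hcont : IsCont t) (σ₀ τ₀ : GQ) (hx : IsUnit (xF t i2 c₀ σ₀ τ₀)) :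
    ∃ (ρ : GaloisRepAdic T) (r : GQ →* M2 T), HasMatrix ρ r ∧ MatCont T r ∧
      (∀ g, (r g).trace = t g) ∧ (∀ g, (r g).det = c g) ∧ r c₀ = !![1, 0; 0, -1] ∧
      (∀ g, r g 0 0 = aF t i2 c₀ g) ∧ (∀ g, r g 1 1 = dF t i2 c₀ g) ∧
      (∀ g, r g 1 0 = xF t i2 c₀ σ₀ g) ∧ (∀ g, r g 0 1 * xF t i2 c₀ σ₀ τ₀ = xF t i2 c₀ g τ₀) ∧
      (∀ σ, LinearMap.charpoly (ρ.ρ σ) = X ^ 2 - C (t σ) * X + C (c σ)) ∧
      ρ.residual.IsAbsolutelyIrreducible := by
  obtain ⟨u, hu⟩ := hx.exists_left_inv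
  obtain ⟨r, hr, hrg, htr, hdet, hc⟩ := exists_matRep h h2 hc₀ hcc hcont σ₀ τ₀ u hu
  refine ⟨ofMat r hr, r, Fermat.Agent.S53.hasMatrix_ofMat r hr, hr, htr, hdet, hc,
    fun g => by rw [hrg]; rfl, fun g => by rw [hrg]; rfl, fun g => by rw [hrg]; rfl, fun g => ?_,
    fun σ => by rw [charpoly_ofMat, htr, hdet], ?_⟩
  · rw [hrg]
    change u * xF t i2 c₀ g τ₀ * xF t i2 c₀ σ₀ τ₀ = _
    rw [mul_right_comm, hu, one_mul]
  · refine residual_absIrr_ofMat h2 r hr σ₀ τ₀ hc ?_ ?_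
    · rw [hrg]
      change IsUnit (u * xF t i2 c₀ σ₀ τ₀)
      rw [hu]; exact isUnit_one
    · rw [hrg]
      exact hx

end Fermat.Agent.TW.TR
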