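import Mathlib

/-!
# TW / TR / Chev : Chevalley's lemma and closedness

`T` complete for the `m`-adic topology with finite quotients `T / m ^ n`.  A decreasing sequence of
open ideals with zero intersection is cofinal with the powers of `m`.
-/

set_option autoImplicit false

namespace Fermat.Agent.TW.TRC

variable {T : Type*} [CommRing T]

theorem exists_limit (m : Ideal T) [IsAdicComplete m T] (z : ℕ → T)
    (hz : ∀ k l, k ≤ l → z l - z k ∈ m ^ k) : ∃ L : T, ∀ k, L - z k ∈ m ^ k := by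
  obtain ⟨L, hL⟩ := IsPrecomplete.prec (I := m) (M := T) inferInstance (f := z) (by
    intro k l hkl
    rw [SModEq.sub_mem, smul_eq_mul, Ideal.mul_top]
    have := hz k l hkl
    rw [← neg_sub]
    exact neg_mem this)
  refine ⟨L, fun k => ?_⟩
  have := hL k
  rw [SModEq.sub_mem, smul_eq_mul, Ideal.mul_top] at this
  rw [← neg_sub]
  exact neg_mem this

/-- **Chevalley's lemma.** -/
theorem chevalley (m : Ideal T) [IsAdicComplete m T] (hfin : ∀ n, Finite (T ⧸ m ^ n))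
    (J : ℕ → Ideal T) (hanti : Antitone J) (hopen : ∀ n, m ^ n ≤ J n)
    (hJ : ∀ x, (∀ n, x ∈ J n) → x = 0) (n : ℕ) : ∃ n', J n' ≤ m ^ n := by
  by_contra hcon
  rw [not_exists] at hcon
  have h1 : ∀ n', ∃ x ∈ J n', x ∉ m ^ n := fun n' => SetLike.not_le_iff_exists.1 (hcon n')
  choose x hxJ hxm using h1
  let U : Ultrafilter ℕ := Filter.hyperfilter ℕ
  have hA : ∀ k, ∃ z : T, {i | x i - z ∈ m ^ k} ∈ U := by
    intro k
    have := hfin k
    obtain ⟨a, ha⟩ := (U.map (fun i => Ideal.Quotient.mk (m ^ k) (x i))).eq_pure_of_finite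
    obtain ⟨z, rfl⟩ := Ideal.Quotient.mk_surjective a
    refine ⟨z, ?_⟩
    have h2 : {a' | a' = Ideal.Quotient.mk (m ^ k) z} ∈
        (U.map (fun i => Ideal.Quotient.mk (m ^ k) (x i))) := by
      rw [ha]
      exact Ultrafilter.mem_pure.2 rfl
    rw [Ultrafilter.mem_map] at h2
    convert h2 using 1
    ext i
    show x i - z ∈ m ^ k ↔ Ideal.Quotient.mk (m ^ k) (x i) = Ideal.Quotient.mk (m ^ k) z
    rw [Ideal.Quotient.eq]
  choose z hz using hA
  have hc : ∀ k l, k ≤ l → z l - z k ∈ m ^ k := by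
    intro k l hkl
    obtain ⟨i, hi1, hi2⟩ := (U.neBot.nonempty_of_mem (U.inter_sets (hz k) (hz l)))
    have h3 : x i - z l ∈ m ^ k := Ideal.pow_le_pow_right hkl hi2
    have : z l - z k = (x i - z k) - (x i - z l) := by ring
    rw [this]
    exact sub_mem hi1 h3
  obtain ⟨L, hL⟩ := exists_limit m z hc
  have hL0 : L = 0 := by
    apply hJ
    intro N
    have hcof : {i | N ≤ i} ∈ U := by
      apply Filter.mem_hyperfilter_of_finite_compl
      have : {i | N ≤ i}ᶜ = Set.Iio N := by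
        ext i; simp
      rw [this]
      exact Set.finite_Iio N
    obtain ⟨i, hi1, hi2⟩ := (U.neBot.nonempty_of_mem (U.inter_sets (hz N) hcof))
    have h4 : x i ∈ J N := hanti hi2 (hxJ i)
    have : L = (L - z N) - (x i - z N) + x i := by ring
    rw [this]
    exact add_mem (sub_mem (hopen N (hL N)) (hopen N hi1)) h4
  obtain ⟨i, hi⟩ := U.neBot.nonempty_of_mem (hz n)
  apply hxm i
  have : x i = (x i - z n) - (L - z n) + L := by ring
  rw [this]
  exact add_mem (sub_mem hi (hL n)) (hL0 ▸ zero_mem _)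

/-- a monotone cofinal function -/
theorem chevalley_mono (m : Ideal T) [IsAdicComplete m T] (hfin : ∀ n, Finite (T ⧸ m ^ n))
    (J : ℕ → Ideal T) (hanti : Antitone J) (hopen : ∀ n, m ^ n ≤ J n)
    (hJ : ∀ x, (∀ n, x ∈ J n) → x = 0) :
    ∃ ν : ℕ → ℕ, Monotone ν ∧ (∀ k, k ≤ ν k) ∧ ∀ k, J (ν k) ≤ m ^ k := by
  choose ν₀ hν₀ using chevalley m hfin J hanti hopen hJ
  refine ⟨fun k => k + ∑ j ∈ Finset.range (k + 1), ν₀ j, ?_, fun k => Nat.le_add_right _ _, ?_⟩
  · intro k l hkl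
    have : ∑ j ∈ Finset.range (k + 1), ν₀ j ≤ ∑ j ∈ Finset.range (l + 1), ν₀ j :=
      Finset.sum_le_sum_of_subset (Finset.range_mono (by omega))
    show k + _ ≤ l + _
    omega
  · intro k
    refine le_trans (hanti ?_) (hν₀ k)
    have : ν₀ k ≤ ∑ j ∈ Finset.range (k + 1), ν₀ j :=
      Finset.single_le_sum (f := ν₀) (fun _ _ => Nat.zero_le _) (Finset.self_mem_range_succ k)
    show ν₀ k ≤ k + _
    omega

section Family

variable [IsLocalRing T] {I : Type*} (R : I → Type*) [∀ g, CommRing (R g)]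
  [∀ g, IsLocalRing (R g)] (φ : ∀ g, T →+* R g)

open IsLocalRing

/-- the ideal of the elements which are `n`-small in every `R g`. -/
def JJ (n : ℕ) : Ideal T := ⨅ g, (maximalIdeal (R g) ^ n).comap (φ g)

omit [IsLocalRing T] in
theorem mem_JJ {n : ℕ} {x : T} : x ∈ JJ R φ n ↔ ∀ g, φ g x ∈ maximalIdeal (R g) ^ n := by
  simp [JJ]

theorem JJ_antitone : Antitone (JJ R φ) := by
  intro k l hkl x hx
  rw [mem_JJ] at hx ⊢
  exact fun g => Ideal.pow_le_pow_right hkl (hx g)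

theorem pow_le_JJ [∀ g, IsLocalHom (φ g)] (n : ℕ) : maximalIdeal T ^ n ≤ JJ R φ n := by
  intro x hx
  rw [mem_JJ]
  intro g
  have h1 : (maximalIdeal T).map (φ g) ≤ maximalIdeal (R g) :=
    Ideal.map_le_iff_le_comap.2 fun a ha => Ideal.mem_comap.2 (map_nonunit (φ g) a ha)
  have h2 : φ g x ∈ (maximalIdeal T ^ n).map (φ g) := Ideal.mem_map_of_mem _ hx
  rw [Ideal.map_pow] at h2
  exact Ideal.pow_right_mono h1 n h2

theorem eq_zero_of_forall_mem_JJ [∀ g, IsHausdorff (maximalIdeal (R g)) (R g)]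
    (hφ : ∀ x : T, (∀ g, φ g x = 0) → x = 0) (x : T) (hx : ∀ n, x ∈ JJ R φ n) : x = 0 := by
  apply hφ
  intro g
  apply IsHausdorff.haus (I := maximalIdeal (R g)) inferInstance
  intro n
  rw [SModEq.zero, smul_eq_mul, Ideal.mul_top]
  exact (mem_JJ R φ).1 (hx n) g

variable [IsAdicComplete (maximalIdeal T) T] [∀ g, IsLocalHom (φ g)]
  [∀ g, IsHausdorff (maximalIdeal (R g)) (R g)]

/-- (TOP) -/
theorem exists_nu (hfin : ∀ n, Finite (T ⧸ maximalIdeal T ^ n))
    (hφ : ∀ x : T, (∀ g, φ g x = 0) → x = 0) :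
    ∃ ν : ℕ → ℕ, Monotone ν ∧ (∀ k, k ≤ ν k) ∧ ∀ k, JJ R φ (ν k) ≤ maximalIdeal T ^ k :=
  chevalley_mono (maximalIdeal T) hfin (JJ R φ) (JJ_antitone R φ) (pow_le_JJ R φ)
    (eq_zero_of_forall_mem_JJ R φ hφ)

/-- (CL) : the image of `T` in `∏ R g` is closed. -/
theorem exists_of_approx (hfin : ∀ n, Finite (T ⧸ maximalIdeal T ^ n))
    (hφ : ∀ x : T, (∀ g, φ g x = 0) → x = 0) (y : ∀ g, R g)
    (hy : ∀ n, ∃ x : T, ∀ g, φ g x - y g ∈ maximalIdeal (R g) ^ n) :
    ∃ x : T, ∀ g, φ g x = y g := by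
  obtain ⟨ν, hmono, hle, hν⟩ := exists_nu R φ hfin hφ
  choose x hx using hy
  have hc : ∀ k l, k ≤ l → x (ν l) - x (ν k) ∈ maximalIdeal T ^ k := by
    intro k l hkl
    apply hν k
    rw [mem_JJ]
    intro g
    have h1 := hx (ν k) g
    have h2 : φ g (x (ν l)) - y g ∈ maximalIdeal (R g) ^ ν k :=
      Ideal.pow_le_pow_right (hmono hkl) (hx (ν l) g)
    have : φ g (x (ν l) - x (ν k)) = (φ g (x (ν l)) - y g) - (φ g (x (ν k)) - y g) := by
      rw [map_sub]; ring
    rw [this]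
    exact sub_mem h2 h1
  obtain ⟨L, hL⟩ := exists_limit (maximalIdeal T) (fun k => x (ν k)) hc
  refine ⟨L, fun g => ?_⟩
  rw [← sub_eq_zero]
  apply IsHausdorff.haus (I := maximalIdeal (R g)) inferInstance
  intro n
  rw [SModEq.zero, smul_eq_mul, Ideal.mul_top]
  have h1 : φ g (L - x (ν n)) ∈ maximalIdeal (R g) ^ n :=
    (mem_JJ R φ).1 (pow_le_JJ R φ n (hL n)) g
  have h2 : φ g (x (ν n)) - y g ∈ maximalIdeal (R g) ^ n :=
    Ideal.pow_le_pow_right (hle n) (hx (ν n) g)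
  have : φ g L - y g = φ g (L - x (ν n)) + (φ g (x (ν n)) - y g) := by
    rw [map_sub]; ring
  rw [this]
  exact add_mem h1 h2

end Family

end Fermat.Agent.TW.TRC
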