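import Mathlib

/-!
# TW / TR / Gma : Carayol's lemma, explicit form with an involution (pure algebra)

`T` a commutative ring, `φ g : T →+* R g` a jointly injective family of ring homomorphisms,
`M g : G →* M₂(R g)` representations whose traces come from one function `t : G → T`, and
`c ∈ G` with `M g c = diag(1,-1)` for all `g`.  If one "`b(σ₀) c(τ₀)`" is a unit of `T`, the `M g`
are simultaneously conjugate (by diagonal matrices) to the base changes of ONE representation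
`G →* M₂(T)`, whose entries are explicit polynomials in the values of `t`.
-/

set_option autoImplicit false

namespace Fermat.Agent.TW.TRC

open Matrix

section Diag

variable {R : Type*} [CommRing R] [IsLocalRing R]

/-- An involution of trace `0` over a local ring in which `2` is invertible is conjugate to
`diag(1,-1)`. -/
theorem exists_conj_diag (h2 : IsUnit (2 : R)) (C : Matrix (Fin 2) (Fin 2) R) (hC : C * C = 1)
    (htr : C.trace = 0) :
    ∃ P : (Matrix (Fin 2) (Fin 2) R)ˣ,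
      (↑P⁻¹ : Matrix (Fin 2) (Fin 2) R) * C * (↑P : Matrix (Fin 2) (Fin 2) R)
        = !![1, 0; 0, -1] := by
  have h00 := congrFun (congrFun hC 0) 0
  have h01 := congrFun (congrFun hC 0) 1
  have h10 := congrFun (congrFun hC 1) 0
  have h11 := congrFun (congrFun hC 1) 1
  simp only [Matrix.mul_apply, Fin.sum_univ_two, Matrix.one_apply_eq, Matrix.one_apply_ne,
    ne_eq, zero_ne_one, one_ne_zero, not_false_eq_true] at h00 h01 h10 h11
  rw [Matrix.trace_fin_two] at htr
  set α := C 0 0 with hα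
  set β := C 0 1 with hβ
  set γ := C 1 0 with hγ
  have hδ : C 1 1 = -α := by linear_combination htr
  rw [hδ] at h01 h10 h11
  have hCeq : C = !![α, β; γ, -α] := by
    ext i j
    fin_cases i <;> fin_cases j <;> simp [hα, hβ, hγ, hδ]
  have key : ∀ P : Matrix (Fin 2) (Fin 2) R, IsUnit P.det → C * P = P * !![1, 0; 0, -1] →
      ∃ P : (Matrix (Fin 2) (Fin 2) R)ˣ,
        (↑P⁻¹ : Matrix (Fin 2) (Fin 2) R) * C * (↑P : Matrix (Fin 2) (Fin 2) R)
          = !![1, 0; 0, -1] := by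
    intro P hP hCP
    obtain ⟨U, hU⟩ := (Matrix.isUnit_iff_isUnit_det P).2 hP
    refine ⟨U, ?_⟩
    rw [mul_assoc, hU, hCP, ← hU, ← mul_assoc, Units.inv_mul, one_mul]
  have hsum : (1 + α) + (1 - α) = 2 := by ring
  rcases IsLocalRing.isUnit_or_isUnit_of_isUnit_add (hsum ▸ h2) with h | h
  · refine key !![1 + α, -β; γ, 1 + α] ?_ ?_
    · rw [Matrix.det_fin_two_of]
      have : (1 + α) * (1 + α) - -β * γ = 2 * (1 + α) := by linear_combination h00
      rw [this]
      exact h2.mul h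
    · rw [hCeq]
      ext i j
      fin_cases i <;> fin_cases j <;>
        simp [Matrix.mul_apply, Fin.sum_univ_two]
      · linear_combination h00
      · ring
      · ring
      · linear_combination -h00
  · refine key !![β, 1 - α; 1 - α, -γ] ?_ ?_
    · rw [Matrix.det_fin_two_of]
      have : β * -γ - (1 - α) * (1 - α) = 2 * (1 - α) * (-1) := by linear_combination -h00
      rw [this]
      exact (h2.mul h).mul isUnit_one.neg
    · rw [hCeq]
      ext i j
      fin_cases i <;> fin_cases j <;>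
        simp [Matrix.mul_apply, Fin.sum_univ_two]
      · ring
      · linear_combination -h00
      · linear_combination h00
      · ring

end Diag

section Gma

variable {G : Type*} [Group G] {T : Type*} [CommRing T]

/-- the upper left entry, `i2 = 1/2` -/
def aa (i2 : T) (t : G → T) (c : G) (σ : G) : T := i2 * (t σ + t (c * σ))

/-- the lower right entry -/
def dd (i2 : T) (t : G → T) (c : G) (σ : G) : T := i2 * (t σ - t (c * σ))

/-- `b(σ) c(τ)` -/
def xx (i2 : T) (t : G → T) (c : G) (σ τ : G) : T :=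
  aa i2 t c (σ * τ) - aa i2 t c σ * aa i2 t c τ

/-- the matrix of `σ` -/
def rr (i2 : T) (t : G → T) (c σ₀ τ₀ : G) (u : T) (σ : G) : Matrix (Fin 2) (Fin 2) T :=
  !![aa i2 t c σ, xx i2 t c σ τ₀ * u; xx i2 t c σ₀ σ, dd i2 t c σ]

theorem trace_rr (i2 : T) (hi2 : i2 * 2 = 1) (t : G → T) (c σ₀ τ₀ : G) (u : T) (σ : G) :
    (rr i2 t c σ₀ τ₀ u σ).trace = t σ := by
  rw [Matrix.trace_fin_two]
  simp only [rr, aa, dd, Matrix.of_apply, Matrix.cons_val', Matrix.cons_val_zero,
    Matrix.cons_val_one, Matrix.cons_val_fin_one]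
  linear_combination t σ * hi2

section One

variable {R : Type*} [CommRing R] (φ : T →+* R) (i2 : T) (hi2 : i2 * 2 = 1)
  (M : G →* Matrix (Fin 2) (Fin 2) R) (c : G) (hc : M c = !![1, 0; 0, -1])
  (t : G → T) (ht : ∀ σ, φ (t σ) = (M σ).trace)

include hi2 hc ht

theorem map_aa (σ : G) : φ (aa i2 t c σ) = M σ 0 0 := by
  have h2 : φ i2 * 2 = 1 := by
    have := congrArg φ hi2
    rwa [map_mul, map_one, map_ofNat] at this
  rw [aa, map_mul, map_add, ht, ht, map_mul, hc, Matrix.trace_fin_two, Matrix.trace_fin_two]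
  simp only [Matrix.mul_apply, Fin.sum_univ_two, Matrix.of_apply, Matrix.cons_val',
    Matrix.cons_val_zero, Matrix.cons_val_one, Matrix.cons_val_fin_one]
  linear_combination M σ 0 0 * h2

theorem map_dd (σ : G) : φ (dd i2 t c σ) = M σ 1 1 := by
  have h2 : φ i2 * 2 = 1 := by
    have := congrArg φ hi2
    rwa [map_mul, map_one, map_ofNat] at this
  rw [dd, map_mul, map_sub, ht, ht, map_mul, hc, Matrix.trace_fin_two, Matrix.trace_fin_two]
  simp only [Matrix.mul_apply, Fin.sum_univ_two, Matrix.of_apply, Matrix.cons_val',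
    Matrix.cons_val_zero, Matrix.cons_val_one, Matrix.cons_val_fin_one]
  linear_combination M σ 1 1 * h2

theorem map_xx (σ τ : G) : φ (xx i2 t c σ τ) = M σ 0 1 * M τ 1 0 := by
  rw [xx, map_sub, map_mul, map_aa φ i2 hi2 M c hc t ht, map_aa φ i2 hi2 M c hc t ht,
    map_aa φ i2 hi2 M c hc t ht, map_mul, Matrix.mul_apply, Fin.sum_univ_two]
  ring

theorem map_rr (σ₀ τ₀ : G) (u : T) (σ : G) :
    (rr i2 t c σ₀ τ₀ u σ).map φ =
      !![M σ 0 0, M σ 0 1 * M τ₀ 1 0 * φ u; M σ₀ 0 1 * M σ 1 0, M σ 1 1] := by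
  have ha := map_aa φ i2 hi2 M c hc t ht σ
  have hd := map_dd φ i2 hi2 M c hc t ht σ
  have hb := map_xx φ i2 hi2 M c hc t ht σ τ₀
  have hcc := map_xx φ i2 hi2 M c hc t ht σ₀ σ
  ext i j
  fin_cases i <;> fin_cases j <;> simp [rr, ha, hd, hb, hcc]

theorem exists_conj_rr (σ₀ τ₀ : G) (u : T) (hu : xx i2 t c σ₀ τ₀ * u = 1) :
    ∃ D : (Matrix (Fin 2) (Fin 2) R)ˣ, ∀ σ,
      (rr i2 t c σ₀ τ₀ u σ).map φ
        = (↑D⁻¹ : Matrix (Fin 2) (Fin 2) R) * M σ * (↑D : Matrix (Fin 2) (Fin 2) R) := by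
  have h1 : M σ₀ 0 1 * M τ₀ 1 0 * φ u = 1 := by
    rw [← map_xx φ i2 hi2 M c hc t ht, ← map_mul, hu, map_one]
  refine ⟨⟨!![M σ₀ 0 1, 0; 0, 1], !![M τ₀ 1 0 * φ u, 0; 0, 1], ?_, ?_⟩, fun σ => ?_⟩
  · ext i j
    fin_cases i <;> fin_cases j <;> simp [Matrix.mul_apply, Fin.sum_univ_two]
    linear_combination h1
  · ext i j
    fin_cases i <;> fin_cases j <;> simp [Matrix.mul_apply, Fin.sum_univ_two]
    linear_combination h1
  · have ha := map_aa φ i2 hi2 M c hc t ht σ
    have hd := map_dd φ i2 hi2 M c hc t ht σ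
    have hb := map_xx φ i2 hi2 M c hc t ht σ τ₀
    have hcc := map_xx φ i2 hi2 M c hc t ht σ₀ σ
    show (rr i2 t c σ₀ τ₀ u σ).map φ = !![M τ₀ 1 0 * φ u, 0; 0, 1] * M σ * !![M σ₀ 0 1, 0; 0, 1]
    rw [Matrix.eta_fin_two (M σ), Matrix.mul_fin_two, Matrix.mul_fin_two]
    ext i j
    fin_cases i <;> fin_cases j <;> simp [rr, ha, hd, hb, hcc]
    · linear_combination (-(M σ 0 0)) * h1
    · ring
    · ring

end One

/-- **Carayol's lemma**, explicit form. -/
theorem exists_rep {I : Type*} (R : I → Type*) [∀ g, CommRing (R g)] (φ : ∀ g, T →+* R g)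
    (hφ : ∀ x : T, (∀ g, φ g x = 0) → x = 0) (i2 : T) (hi2 : i2 * 2 = 1)
    (M : ∀ g, G →* Matrix (Fin 2) (Fin 2) (R g)) (c : G) (hc : ∀ g, M g c = !![1, 0; 0, -1])
    (t : G → T) (ht : ∀ g σ, φ g (t σ) = (M g σ).trace)
    (σ₀ τ₀ : G) (u : T) (hu : xx i2 t c σ₀ τ₀ * u = 1) :
    ∃ ρ : G →* Matrix (Fin 2) (Fin 2) T, (∀ σ, ρ σ = rr i2 t c σ₀ τ₀ u σ) ∧
      ρ c = !![1, 0; 0, -1] ∧
      ∀ g, ∃ D : (Matrix (Fin 2) (Fin 2) (R g))ˣ, ∀ σ,
        (ρ σ).map (φ g) = (↑D⁻¹ : Matrix (Fin 2) (Fin 2) (R g)) * M g σ *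
          (↑D : Matrix (Fin 2) (Fin 2) (R g)) := by
  have hD := fun g => exists_conj_rr (φ g) i2 hi2 (M g) c (hc g) t (ht g) σ₀ τ₀ u hu
  have hinj : ∀ A B : Matrix (Fin 2) (Fin 2) T, (∀ g, A.map (φ g) = B.map (φ g)) → A = B := by
    intro A B h
    ext i j
    rw [← sub_eq_zero]
    apply hφ
    intro g
    have := congrFun (congrFun (h g) i) j
    simp only [Matrix.map_apply] at this
    rw [map_sub, this, sub_self]
  refine ⟨⟨⟨rr i2 t c σ₀ τ₀ u, ?_⟩, ?_⟩, fun σ => rfl, ?_, hD⟩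
  rotate_left 2
  · apply hinj
    intro g
    show (rr i2 t c σ₀ τ₀ u c).map (φ g) = _
    rw [map_rr (φ g) i2 hi2 (M g) c (hc g) t (ht g), hc g]
    ext i j
    fin_cases i <;> fin_cases j <;> simp
  · apply hinj
    intro g
    obtain ⟨D, hD⟩ := hD g
    rw [hD, map_one, mul_one, Units.inv_mul, Matrix.map_one _ (map_zero _) (map_one _)]
  · intro σ τ
    apply hinj
    intro g
    obtain ⟨D, hD⟩ := hD g
    rw [Matrix.map_mul, hD, hD, hD, map_mul]
    simp only [mul_assoc, Units.mul_inv_cancel_left]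

end Gma

end Fermat.Agent.TW.TRC
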