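import Fermat.Agent.TW.TR.Gma
import Fermat.Agent.TW.TR.Chev
import Fermat.Agent.S53.MatrixRep
import Fermat.Agent.S53.ResidualDict
import Fermat.Agent.S53.NormalForm
import Fermat.Agent.GAL.ChebWire

/-!
# TW / TR / Main : a Galois representation over a local "Hecke algebra" from its points

`T` complete local with finite quotients, `2 ∈ Tˣ`, `φ g : T →+* R g` a finite jointly injective
family of local homomorphisms to separated local rings, `ρ g : GaloisRepAdic (R g)` with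
`tr ρ g (Frob_ℓ) = φ g (Tl ℓ)`, `det ρ g (Frob_ℓ) = φ g (Dl ℓ)` for `ℓ ∉ S`, odd, one of them
residually absolutely irreducible.  Then there is ONE `r : GQ →* M₂(T)`, continuous, whose base
changes are the `ρ g`.
-/

set_option autoImplicit false

namespace Fermat.Agent.TW.TRC

open Fermat.Agent.S53 IsLocalRing Polynomial Matrix

local notation "Qbar" => AlgebraicClosure ℚ

section PowerTrace

variable {A : Type*} [CommRing A]

/-- `tr (X ^ n)` as a polynomial in `a = tr X`, `d = det X`. -/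
def ptr (a d : A) : ℕ → A
  | 0 => 2
  | 1 => a
  | (n + 2) => a * ptr a d (n + 1) - d * ptr a d n

theorem map_ptr {B : Type*} [CommRing B] (f : A →+* B) (a d : A) (n : ℕ) :
    f (ptr a d n) = ptr (f a) (f d) n := by
  induction n using Nat.twoStepInduction with
  | zero => simp only [ptr, map_ofNat]
  | one => simp [ptr]
  | more n h1 h2 => simp only [ptr, map_sub, map_mul, h1, h2]

theorem sq_eq (X : Matrix (Fin 2) (Fin 2) A) : X * X = X.trace • X - X.det • 1 := by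
  rw [Matrix.eta_fin_two X, Matrix.mul_fin_two, Matrix.trace_fin_two_of, Matrix.det_fin_two_of]
  ext i j
  fin_cases i <;> fin_cases j <;> simp <;> ring

theorem trace_pow_eq (X : Matrix (Fin 2) (Fin 2) A) (n : ℕ) :
    (X ^ n).trace = ptr X.trace X.det n := by
  induction n using Nat.twoStepInduction with
  | zero => simp [ptr]
  | one => simp [ptr]
  | more n h1 h2 =>
    have : X ^ (n + 2) = X.trace • X ^ (n + 1) - X.det • X ^ n := by
      rw [pow_add, pow_two, sq_eq, mul_sub, mul_smul_comm, mul_smul_comm, mul_one, ← pow_succ]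
    rw [this, Matrix.trace_sub, Matrix.trace_smul, Matrix.trace_smul, h1, h2]
    simp [ptr]

end PowerTrace

section Entry

variable {A : Type*} [CommRing A] (J : Ideal A)

theorem mul_entry_mem {X Y : Matrix (Fin 2) (Fin 2) A} (hY : ∀ i j, Y i j ∈ J) (i j : Fin 2) :
    (X * Y) i j ∈ J := by
  rw [Matrix.mul_apply]
  exact Ideal.sum_mem _ fun k _ => Ideal.mul_mem_left _ _ (hY k j)

theorem mul_entry_mem' {X Y : Matrix (Fin 2) (Fin 2) A} (hX : ∀ i j, X i j ∈ J) (i j : Fin 2) :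
    (X * Y) i j ∈ J := by
  rw [Matrix.mul_apply]
  exact Ideal.sum_mem _ fun k _ => Ideal.mul_mem_right _ _ (hX i k)

theorem trace_mem {X : Matrix (Fin 2) (Fin 2) A} (hX : ∀ i j, X i j ∈ J) : X.trace ∈ J := by
  rw [Matrix.trace_fin_two]
  exact J.add_mem (hX 0 0) (hX 1 1)

end Entry

section Matrix

variable {T : Type} [CommRing T] [IsLocalRing T] [IsAdicComplete (maximalIdeal T) T]
  {I : Type} [Finite I] (R : I → Type) [∀ g, CommRing (R g)] [∀ g, IsLocalRing (R g)]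
  [∀ g, IsHausdorff (maximalIdeal (R g)) (R g)]
  (φ : ∀ g, T →+* R g) [∀ g, IsLocalHom (φ g)]

omit [IsLocalRing T] [IsAdicComplete (maximalIdeal T) T]
  [∀ g, IsHausdorff (maximalIdeal (R g)) (R g)] [∀ g, IsLocalHom (φ g)] in
/-- a common level for all `g`. -/
theorem exists_common_level (M : ∀ g, GQ →* M2 (R g)) (hM : ∀ g, MatCont (R g) (M g)) (n : ℕ) :
    ∃ L : IntermediateField ℚ Qbar, FiniteDimensional ℚ L ∧
      ∀ σ : GQ, (∀ x ∈ L, σ x = x) → ∀ g i j, (M g σ - 1) i j ∈ maximalIdeal (R g) ^ n := by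
  choose L hL h using fun g => hM g n
  refine ⟨⨆ g, L g, IntermediateField.finiteDimensional_iSup_of_finite, fun σ hσ g i j => ?_⟩
  exact h g σ (fun x hx => hσ x (le_iSup L g hx)) i j

/-- the trace function with values in `T`. -/
theorem exists_trace (hfin : ∀ n, Finite (T ⧸ maximalIdeal T ^ n))
    (hφ : ∀ x : T, (∀ g, φ g x = 0) → x = 0)
    (M : ∀ g, GQ →* M2 (R g)) (hM : ∀ g, MatCont (R g) (M g))
    (S : Finset ℕ) (Tl Dl : ℕ → T)
    (hfrob : ∀ g (ℓ : ℕ), ℓ.Prime → ℓ ∉ S → ∀ A : ValuationSubring Qbar, A.LiesOverPrime ℓ →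
      ∀ σ : GQ, A.IsFrobeniusAt σ ℓ →
        (M g σ).trace = φ g (Tl ℓ) ∧ (M g σ).det = φ g (Dl ℓ)) (σ : GQ) :
    ∃ x : T, ∀ g, φ g x = (M g σ).trace := by
  apply exists_of_approx R φ hfin hφ
  intro n
  obtain ⟨L, hL, h⟩ := exists_common_level R M hM n
  obtain ⟨ℓ, A, τ, e, hℓ, hℓS, hA, hτ, hστ⟩ := GAL.genCheb L hL σ S
  refine ⟨ptr (Tl ℓ) (Dl ℓ) e, fun g => ?_⟩
  obtain ⟨h1, h2⟩ := hfrob g ℓ hℓ hℓS A hA τ hτ
  rw [map_ptr, ← h1, ← h2, ← trace_pow_eq, ← map_pow]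
  have hδ : ∀ x ∈ L, ((τ ^ e)⁻¹ * σ) x = x := by
    intro x hx
    rw [AlgEquiv.mul_apply, hστ x hx]
    exact (τ ^ e).symm_apply_apply x
  have h3 : M g σ = M g (τ ^ e) * M g ((τ ^ e)⁻¹ * σ) := by
    rw [← map_mul, mul_inv_cancel_left]
  have h4 : (M g (τ ^ e)).trace - (M g σ).trace
      = -(M g (τ ^ e) * (M g ((τ ^ e)⁻¹ * σ) - 1)).trace := by
    rw [mul_sub, mul_one, ← h3, Matrix.trace_sub]; ring
  rw [h4]
  exact neg_mem (trace_mem _ (mul_entry_mem _ (h _ hδ g)))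

/-- **[TR], matrix form.** -/
theorem exists_matRep (hfin : ∀ n, Finite (T ⧸ maximalIdeal T ^ n)) (h2 : IsUnit (2 : T))
    (hφ : ∀ x : T, (∀ g, φ g x = 0) → x = 0)
    (M : ∀ g, GQ →* M2 (R g)) (hM : ∀ g, MatCont (R g) (M g))
    (S : Finset ℕ) (Tl Dl : ℕ → T)
    (hfrob : ∀ g (ℓ : ℕ), ℓ.Prime → ℓ ∉ S → ∀ A : ValuationSubring Qbar, A.LiesOverPrime ℓ →
      ∀ σ : GQ, A.IsFrobeniusAt σ ℓ →
        (M g σ).trace = φ g (Tl ℓ) ∧ (M g σ).det = φ g (Dl ℓ))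
    (c : GQ) (hc : ∀ g, M g c = !![1, 0; 0, -1])
    (g₀ : I) (σ₀ τ₀ : GQ) (hu : IsUnit (M g₀ σ₀ 0 1 * M g₀ τ₀ 1 0)) :
    ∃ r : GQ →* M2 T, MatCont T r ∧ r c = !![1, 0; 0, -1] ∧
      ∀ g, ∃ D : (M2 (R g))ˣ, ∀ σ,
        mapRep (φ g) r σ = (↑D⁻¹ : M2 (R g)) * M g σ * (↑D : M2 (R g)) := by
  choose t ht using exists_trace R φ hfin hφ M hM S Tl Dl hfrob
  obtain ⟨w, hw⟩ := h2
  have hi2 : (↑w⁻¹ : T) * 2 = 1 := by rw [← hw, Units.inv_mul]
  have hx : IsUnit (xx (↑w⁻¹ : T) t c σ₀ τ₀) := by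
    apply isUnit_of_map_unit (φ g₀)
    rw [map_xx (φ g₀) _ hi2 (M g₀) c (hc g₀) t (fun σ => ht σ g₀)]
    exact hu
  obtain ⟨v, hv⟩ := hx
  have hu' : xx (↑w⁻¹ : T) t c σ₀ τ₀ * (↑v⁻¹ : T) = 1 := by rw [← hv, Units.mul_inv]
  obtain ⟨r, -, hrc, hD⟩ := exists_rep R φ hφ _ hi2 M c hc t (fun g σ => ht σ g) σ₀ τ₀ _ hu'
  refine ⟨r, ?_, hrc, hD⟩
  intro n
  obtain ⟨ν, -, -, hν⟩ := exists_nu R φ hfin hφ
  obtain ⟨L, hL, h⟩ := exists_common_level R M hM (ν n)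
  refine ⟨L, hL, fun σ hσ i j => hν n ?_⟩
  rw [mem_JJ]
  intro g
  obtain ⟨D, hD⟩ := hD g
  have h1 : φ g ((r σ - 1) i j)
      = ((↑D⁻¹ : M2 (R g)) * (M g σ - 1) * (↑D : M2 (R g))) i j := by
    rw [mul_sub, sub_mul, mul_one, Units.inv_mul, ← hD]
    simp only [Matrix.sub_apply, map_sub, Matrix.one_apply]
    split_ifs <;> simp
  rw [h1]
  exact mul_entry_mem' _ (mul_entry_mem _ (h σ hσ g)) i j

end Matrix

end Fermat.Agent.TW.TRC
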