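import Fermat.Agent.TW.TR.Main

/-!
# TW / TR / Rep : [TR] in the language of `GaloisRepAdic`
-/

set_option autoImplicit false

namespace Fermat.Agent.TW.TRC

open Fermat.Agent.S53 IsLocalRing Polynomial Matrix
open scoped TensorProduct

local notation "Qbar" => AlgebraicClosure ℚ

section Normalise

variable {R : Type} [CommRing R] [IsLocalRing R]

theorem hasMatrix_conj {ρ : GaloisRepAdic R} {r : GQ →* M2 R} (h : HasMatrix ρ r) (P : (M2 R)ˣ) :
    HasMatrix ρ (conjRep P r) := by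
  have hr := h.matCont
  obtain ⟨e⟩ := h.isEquiv_ofMat hr
  obtain ⟨e'⟩ := ofMat_isEquiv_of_conj hr (hr.conjRep P) P (mul_eq_conjRep_mul P r)
  exact hasMatrix_of_isEquiv_ofMat (hr := hr.conjRep P) ⟨e.trans e'⟩

omit [IsLocalRing R] in
/-- an involution of determinant `-1` has trace `0`. -/
theorem trace_eq_zero_of_involution (C : M2 R) (hC : C * C = 1) (hdet : C.det = -1) :
    C.trace = 0 := by
  have h := sq_eq C
  rw [hC, hdet] at h
  have h1 : C.trace • C = 0 := by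
    have h3 : (1 : M2 R) = C.trace • C + 1 := by
      rw [neg_smul, one_smul, sub_neg_eq_add] at h
      exact h
    exact (add_eq_right.1 h3.symm)
  have h2 : C.trace • (C * C) = 0 := by rw [← smul_mul_assoc, h1, zero_mul]
  rw [hC] at h2
  have := congrFun (congrFun h2 0) 0
  simpa using this

theorem exists_hasMatrix_diag (h2 : IsUnit (2 : R)) (ρ : GaloisRepAdic R) (c : GQ)
    (hc : c * c = 1) (hdet : LinearMap.det (ρ.ρ c) = -1) :
    ∃ r : GQ →* M2 R, HasMatrix ρ r ∧ r c = !![1, 0; 0, -1] := by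
  set b := someBasis ρ
  have hC : toMat ρ b c * toMat ρ b c = 1 := by rw [← map_mul, hc, map_one]
  have hd : (toMat ρ b c).det = -1 := by
    rw [toMat_apply, LinearMap.det_toMatrix, hdet]
  obtain ⟨P, hP⟩ := exists_conj_diag h2 _ hC (trace_eq_zero_of_involution _ hC hd)
  refine ⟨conjRep P⁻¹ (toMat ρ b), hasMatrix_conj (hasMatrix_toMat ρ b) _, ?_⟩
  rw [conjRep_apply, inv_inv]
  exact hP

theorem isUnit_of_residue_ne_zero {x : R} (h : residue R x ≠ 0) : IsUnit x := by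
  by_contra hx
  exact h ((residue_eq_zero_iff x).2 ((mem_maximalIdeal x).2 hx))

theorem exists_unit_entries {ρ : GaloisRepAdic R} {r : GQ →* M2 R} (h : HasMatrix ρ r)
    (habs : ρ.residual.IsAbsolutelyIrreducible) :
    ∃ σ₀ τ₀ : GQ, IsUnit (r σ₀ 0 1 * r τ₀ 1 0) := by
  obtain ⟨b, hb⟩ := h
  have hr : ∀ σ i j, LinearMap.toMatrix (residualBasis ρ b) (residualBasis ρ b)
      (ρ.residual.ρ σ) i j = residue R (r σ i j) := by
    intro σ i j
    have := congrFun (congrFun (DFunLike.congr_fun (toMatRes_residual ρ b) σ) i) j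
    rw [toMatRes_apply, mapRep_apply, toMat_apply, hb] at this
    exact this
  set B := residualBasis ρ b
  -- lower left entry
  obtain ⟨τ₀, hτ₀⟩ := exists_not_mem_span ρ.residual habs B
  have h10 : residue R (r τ₀ 1 0) ≠ 0 := by
    intro h0
    apply hτ₀
    rw [Submodule.mem_span_singleton]
    refine ⟨residue R (r τ₀ 0 0), ?_⟩
    have := B.sum_repr (ρ.residual.ρ τ₀ (B 0))
    rw [Fin.sum_univ_two] at this
    rw [← this, ← LinearMap.toMatrix_apply B B, ← LinearMap.toMatrix_apply B B, hr, hr, h0,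
      zero_smul, add_zero]
  -- upper right entry
  set B' : Module.Basis (Fin 2) (ResidueField R) ρ.residual.V := B.reindex (Equiv.swap 0 1)
  have hB0 : B' 0 = B 1 := by simp [B']
  obtain ⟨σ₀, hσ₀⟩ := exists_not_mem_span ρ.residual habs B'
  rw [hB0] at hσ₀
  have h01 : residue R (r σ₀ 0 1) ≠ 0 := by
    intro h0
    apply hσ₀
    rw [Submodule.mem_span_singleton]
    refine ⟨residue R (r σ₀ 1 1), ?_⟩
    have := B.sum_repr (ρ.residual.ρ σ₀ (B 1))
    rw [Fin.sum_univ_two] at this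
    rw [← this, ← LinearMap.toMatrix_apply B B, ← LinearMap.toMatrix_apply B B, hr, hr, h0,
      zero_smul, zero_add]
  exact ⟨σ₀, τ₀, (isUnit_of_residue_ne_zero h01).mul (isUnit_of_residue_ne_zero h10)⟩

end Normalise

section Irr

theorem eq_bot_or_top_of_stable {K V : Type*} [Field K] [AddCommGroup V] [Module K V]
    (B : Module.Basis (Fin 2) K V) (h2 : (2 : K) ≠ 0) (fc fσ fτ : V →ₗ[K] V)
    (hc0 : fc (B 0) = B 0) (hc1 : fc (B 1) = - B 1) (a b c d : K)
    (hσ : fσ (B 1) = b • B 0 + d • B 1) (hb : b ≠ 0)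
    (hτ : fτ (B 0) = a • B 0 + c • B 1) (hc : c ≠ 0) (W : Submodule K V)
    (hWc : ∀ x ∈ W, fc x ∈ W) (hWσ : ∀ x ∈ W, fσ x ∈ W) (hWτ : ∀ x ∈ W, fτ x ∈ W) :
    W = ⊥ ∨ W = ⊤ := by
  by_cases hW : W = ⊥
  · exact Or.inl hW
  right
  obtain ⟨w, hwW, hw0⟩ := Submodule.exists_mem_ne_zero_of_ne_bot hW
  have hw := B.sum_repr w
  rw [Fin.sum_univ_two] at hw
  set x := B.repr w 0
  set y := B.repr w 1
  have hcw : fc w = x • B 0 - y • B 1 := by
    rw [← hw, map_add, map_smul, map_smul, hc0, hc1, smul_neg, sub_eq_add_neg]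
  have h0 : (2 * x) • B 0 ∈ W := by
    have : (2 * x) • B 0 = w + fc w := by
      rw [hcw, ← hw, mul_smul, two_smul]; abel
    rw [this]
    exact W.add_mem hwW (hWc w hwW)
  have h1 : (2 * y) • B 1 ∈ W := by
    have : (2 * y) • B 1 = w - fc w := by
      rw [hcw, ← hw, mul_smul, two_smul]; abel
    rw [this]
    exact W.sub_mem hwW (hWc w hwW)
  have hboth : B 0 ∈ W ∧ B 1 ∈ W := by
    by_cases hx : x = 0
    · have hy : y ≠ 0 := by
        intro hy
        apply hw0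
        rw [← hw, hx, hy, zero_smul, zero_smul, add_zero]
      have hB1 : B 1 ∈ W := (W.smul_mem_iff (mul_ne_zero h2 hy)).1 h1
      have h3 : b • B 0 ∈ W := by
        have : b • B 0 = fσ (B 1) - d • B 1 := by rw [hσ]; abel
        rw [this]
        exact W.sub_mem (hWσ _ hB1) (W.smul_mem _ hB1)
      exact ⟨(W.smul_mem_iff hb).1 h3, hB1⟩
    · have hB0 : B 0 ∈ W := (W.smul_mem_iff (mul_ne_zero h2 hx)).1 h0
      have h3 : c • B 1 ∈ W := by
        have : c • B 1 = fτ (B 0) - a • B 0 := by rw [hτ]; abel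
        rw [this]
        exact W.sub_mem (hWτ _ hB0) (W.smul_mem _ hB0)
      exact ⟨hB0, (W.smul_mem_iff hc).1 h3⟩
  rw [Submodule.eq_top_iff']
  intro v
  rw [← B.sum_repr v, Fin.sum_univ_two]
  exact W.add_mem (W.smul_mem _ hboth.1) (W.smul_mem _ hboth.2)

variable {T : Type} [CommRing T] [IsLocalRing T]

theorem absIrr_of_entries (h2 : IsUnit (2 : T)) {ρ : GaloisRepAdic T} {r : GQ →* M2 T}
    (h : HasMatrix ρ r) (c : GQ) (hrc : r c = !![1, 0; 0, -1]) (σ₀ τ₀ : GQ)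
    (hu : IsUnit (r σ₀ 0 1 * r τ₀ 1 0)) : ρ.residual.IsAbsolutelyIrreducible := by
  obtain ⟨b, hb⟩ := h
  set K := AlgebraicClosure (ResidueField T)
  set f : T →+* K := (algebraMap (ResidueField T) K).comp (residue T) with hf
  set B0 := residualBasis ρ b
  set B : Module.Basis (Fin 2) K (K ⊗[ResidueField T] ρ.residual.V) :=
    Algebra.TensorProduct.basis K B0
  have hm : ∀ σ i j, LinearMap.toMatrix B B ((ρ.residual.baseChange K).ρ σ) i j
      = f (r σ i j) := by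
    intro σ i j
    have h1 : LinearMap.toMatrix B B ((ρ.residual.ρ σ).baseChange K)
        = (LinearMap.toMatrix B0 B0 (ρ.residual.ρ σ)).map (algebraMap (ResidueField T) K) :=
      LinearMap.toMatrix_baseChange K (ρ.residual.ρ σ) B0 B0
    have h3 := congrFun (congrFun (DFunLike.congr_fun (toMatRes_residual ρ b) σ) i) j
    rw [toMatRes_apply, mapRep_apply, toMat_apply, hb] at h3
    show LinearMap.toMatrix B B ((ρ.residual.ρ σ).baseChange K) i j = _
    rw [h1, Matrix.map_apply, h3]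
    rfl
  have hact : ∀ σ j, (ρ.residual.baseChange K).ρ σ (B j)
      = f (r σ 0 j) • B 0 + f (r σ 1 j) • B 1 := by
    intro σ j
    have := B.sum_repr ((ρ.residual.baseChange K).ρ σ (B j))
    rw [Fin.sum_univ_two, ← LinearMap.toMatrix_apply B B, ← LinearMap.toMatrix_apply B B,
      hm, hm] at this
    exact this.symm
  have hunit : ∀ x : T, IsUnit x → f x ≠ 0 := fun x hx => (hx.map f).ne_zero
  intro W hW
  refine eq_bot_or_top_of_stable B ?_ ((ρ.residual.baseChange K).ρ c)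
    ((ρ.residual.baseChange K).ρ σ₀) ((ρ.residual.baseChange K).ρ τ₀) ?_ ?_
    (f (r τ₀ 0 0)) (f (r σ₀ 0 1)) (f (r τ₀ 1 0)) (f (r σ₀ 1 1)) (hact σ₀ 1)
    (hunit _ (isUnit_of_mul_isUnit_left hu)) (hact τ₀ 0)
    (hunit _ (isUnit_of_mul_isUnit_right hu)) W (hW c) (hW σ₀) (hW τ₀)
  · have := hunit 2 h2
    rwa [map_ofNat] at this
  · rw [hact, hrc]; simp
  · rw [hact, hrc]
    simp
    exact neg_one_smul K (B 1)

end Irr

section Final

theorem trace_det_of_charpoly {A : Type*} [CommRing A] [Nontrivial A]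
    (N : Matrix (Fin 2) (Fin 2) A) (a d : A) (h : N.charpoly = X ^ 2 - C a * X + C d) :
    N.trace = a ∧ N.det = d := by
  rw [Matrix.charpoly_fin_two] at h
  have h1 := congrArg (fun P => Polynomial.coeff P 1) h
  have h0 := congrArg (fun P => Polynomial.coeff P 0) h
  simp [Polynomial.coeff_X_pow, Polynomial.coeff_X] at h1 h0
  exact ⟨h1, h0⟩

variable {T : Type} [CommRing T] [IsLocalRing T] [IsAdicComplete (maximalIdeal T) T]
  {I : Type} [Finite I] (R : I → Type) [∀ g, CommRing (R g)] [∀ g, IsLocalRing (R g)]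
  [∀ g, IsHausdorff (maximalIdeal (R g)) (R g)]
  (φ : ∀ g, T →+* R g) [∀ g, IsLocalHom (φ g)]

/-- **[TR]** : Carayol's lemma for a finite jointly injective family of points of `T`. -/
theorem exists_galoisRepAdic (hfin : ∀ n, Finite (T ⧸ maximalIdeal T ^ n)) (h2 : IsUnit (2 : T))
    (hφ : ∀ x : T, (∀ g, φ g x = 0) → x = 0)
    (ρ : ∀ g, GaloisRepAdic (R g)) (S : Finset ℕ) (Tl Dl : ℕ → T)
    (hfrob : ∀ g (ℓ : ℕ), ℓ.Prime → ℓ ∉ S → ∀ A : ValuationSubring Qbar, A.LiesOverPrime ℓ →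
      ∀ σ : GQ, A.IsFrobeniusAt σ ℓ →
        LinearMap.charpoly ((ρ g).ρ σ) = X ^ 2 - C (φ g (Tl ℓ)) * X + C (φ g (Dl ℓ)))
    (c : GQ) (hc : c * c = 1) (hdet : ∀ g, LinearMap.det ((ρ g).ρ c) = -1)
    (g₀ : I) (habs : (ρ g₀).residual.IsAbsolutelyIrreducible) :
    ∃ (r : GQ →* M2 T) (hr : MatCont T r), r c = !![1, 0; 0, -1] ∧
      (∃ σ₀ τ₀ : GQ, IsUnit (r σ₀ 0 1 * r τ₀ 1 0)) ∧
      (∀ g, HasMatrix (ρ g) (mapRep (φ g) r)) ∧
      (∀ g, ((ofMat r hr).baseChangeAlong (φ g) inferInstance).IsEquiv (ρ g)) ∧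
      (∀ ℓ : ℕ, ℓ.Prime → ℓ ∉ S → ∀ A : ValuationSubring Qbar, A.LiesOverPrime ℓ →
        ∀ σ : GQ, A.IsFrobeniusAt σ ℓ →
          LinearMap.charpoly ((ofMat r hr).ρ σ) = X ^ 2 - C (Tl ℓ) * X + C (Dl ℓ)) ∧
      (ofMat r hr).residual.IsAbsolutelyIrreducible := by
  have h2g : ∀ g, IsUnit (2 : R g) := fun g => by
    have := h2.map (φ g)
    rwa [map_ofNat] at this
  choose M hM hMc using fun g => exists_hasMatrix_diag (h2g g) (ρ g) c hc (hdet g)
  have hcharM : ∀ g σ, (M g σ).charpoly = LinearMap.charpoly ((ρ g).ρ σ) := by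
    intro g σ
    obtain ⟨b, hb⟩ := hM g
    rw [← hb σ, LinearMap.charpoly_toMatrix]
  obtain ⟨σ₀, τ₀, hu⟩ := exists_unit_entries (hM g₀) habs
  obtain ⟨r, hr, hrc, hD⟩ := exists_matRep R φ hfin h2 hφ M (fun g => (hM g).matCont) S Tl Dl
    (fun g ℓ hℓ hℓS A hA σ hσ => trace_det_of_charpoly _ _ _
      ((hcharM g σ).trans (hfrob g ℓ hℓ hℓS A hA σ hσ))) c hMc g₀ σ₀ τ₀ hu
  have hHM : ∀ g, HasMatrix (ρ g) (mapRep (φ g) r) := by
    intro g
    obtain ⟨D, hD⟩ := hD g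
    have : mapRep (φ g) r = conjRep D⁻¹ (M g) := by
      ext σ : 1
      rw [hD, conjRep_apply, inv_inv]
    rw [this]
    exact hasMatrix_conj (hM g) _
  obtain ⟨σ₁, τ₁, hu₁⟩ := exists_unit_entries (hHM g₀) habs
  have hu₁' : IsUnit (r σ₁ 0 1 * r τ₁ 1 0) := by
    apply isUnit_of_map_unit (φ g₀)
    rw [map_mul]
    exact hu₁
  refine ⟨r, hr, hrc, ⟨σ₁, τ₁, hu₁'⟩, hHM, fun g => ?_, ?_,
    absIrr_of_entries h2 (hasMatrix_ofMat r hr) c hrc σ₁ τ₁ hu₁'⟩
  · obtain ⟨e⟩ := ofMat_baseChangeAlong_isEquiv (φ g) inferInstance r hr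
    obtain ⟨e'⟩ := (hHM g).isEquiv_ofMat (hr.mapRep (φ g) inferInstance)
    exact ⟨e.trans e'.symm⟩
  · intro ℓ hℓ hℓS A hA σ hσ
    obtain ⟨b, hb⟩ := hasMatrix_ofMat r hr
    rw [← LinearMap.charpoly_toMatrix _ b, hb σ, Matrix.charpoly_fin_two]
    have key : (r σ).trace = Tl ℓ ∧ (r σ).det = Dl ℓ := by
      constructor
      · rw [← sub_eq_zero]
        apply hφ
        intro g
        obtain ⟨b', hb'⟩ := hHM g
        have h1 := (trace_det_of_charpoly (mapRep (φ g) r σ) _ _ (by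
          rw [← hb' σ, LinearMap.charpoly_toMatrix]
          exact hfrob g ℓ hℓ hℓS A hA σ hσ)).1
        rw [map_sub, ← h1, mapRep_apply', Matrix.trace_fin_two, Matrix.trace_fin_two]
        simp
      · rw [← sub_eq_zero]
        apply hφ
        intro g
        obtain ⟨b', hb'⟩ := hHM g
        have h1 := (trace_det_of_charpoly (mapRep (φ g) r σ) _ _ (by
          rw [← hb' σ, LinearMap.charpoly_toMatrix]
          exact hfrob g ℓ hℓ hℓS A hA σ hσ)).2
        rw [map_sub, ← h1, mapRep_apply', Matrix.det_fin_two, Matrix.det_fin_two]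
        simp
    rw [key.1, key.2]

end Final

end Fermat.Agent.TW.TRC
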