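import Fermat.Agent.TW.TR.Adic

/-!
# TW / TR : a unit value of Wiles' function `x` from residual absolute irreducibility
-/

set_option autoImplicit false

open IsLocalRing Polynomial

namespace Fermat.Agent.TW.TR

open Fermat.Agent.S53 (GQ M2 MatCont ofMat HasMatrix)

/-- Matrix form: if the matrices `m g` span `M₂(K)`, `m c₀² = 1`, `tr (m c₀) = 0`, then
`tr (P₁ m(g) P₂ m(g')) ≠ 0` for some `g, g'`, where `P₁ = (1 + m c₀)/2`, `P₂ = (1 - m c₀)/2`. -/
theorem exists_trace_ne_zero {K G : Type*} [Field K] [Monoid G]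
    (m : G →* Matrix (Fin 2) (Fin 2) K) (hspan : Submodule.span K (Set.range m) = ⊤)
    (P₁ P₂ : Matrix (Fin 2) (Fin 2) K) (h1 : P₁.trace ≠ 0) (h2 : P₂.trace ≠ 0) :
    ∃ g g', (P₁ * m g * P₂ * m g').trace ≠ 0 := by
  classical
  by_contra hcon
  push Not at hcon
  have key1 : ∀ g, ∀ Y : Matrix (Fin 2) (Fin 2) K, (P₁ * m g * P₂ * Y).trace = 0 := by
    intro g Y
    have hY : Y ∈ Submodule.span K (Set.range m) := hspan ▸ Submodule.mem_top
    induction hY using Submodule.span_induction with
    | mem x hx => obtain ⟨g', rfl⟩ := hx; exact hcon g g'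
    | zero => simp
    | add x y _ _ hx hy => rw [mul_add, Matrix.trace_add, hx, hy, add_zero]
    | smul a x _ hx => rw [mul_smul_comm, Matrix.trace_smul, hx, smul_zero]
  have key2 : ∀ X Y : Matrix (Fin 2) (Fin 2) K, (P₁ * X * P₂ * Y).trace = 0 := by
    intro X Y
    have hX : X ∈ Submodule.span K (Set.range m) := hspan ▸ Submodule.mem_top
    induction hX using Submodule.span_induction with
    | mem x hx => obtain ⟨g, rfl⟩ := hx; exact key1 g Y
    | zero => simp
    | add x y _ _ hx hy =>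
      rw [mul_add, add_mul, add_mul, Matrix.trace_add, hx, hy, add_zero]
    | smul a x _ hx =>
      rw [mul_smul_comm, smul_mul_assoc, smul_mul_assoc, Matrix.trace_smul, hx, smul_zero]
  have key3 : ∀ X : Matrix (Fin 2) (Fin 2) K, P₁ * X * P₂ = 0 := by
    intro X
    rw [Matrix.ext_iff_trace_mul_right]
    intro Y
    rw [key2, zero_mul, Matrix.trace_zero]
  obtain ⟨a, ha⟩ : ∃ a, P₁ a a ≠ 0 := by
    by_contra hh
    push Not at hh
    exact h1 (by rw [Matrix.trace_fin_two, hh, hh, add_zero])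
  obtain ⟨b, hb⟩ : ∃ b, P₂ b b ≠ 0 := by
    by_contra hh
    push Not at hh
    exact h2 (by rw [Matrix.trace_fin_two, hh, hh, add_zero])
  have h3 := congrFun (congrFun (key3 (Matrix.single a b 1)) a) b
  rw [Matrix.mul_assoc, Matrix.mul_apply] at h3
  simp only [Matrix.zero_apply] at h3
  have h4 : ∑ j, P₁ a j * (Matrix.single a b (1 : K) * P₂) j b = P₁ a a * P₂ b b := by
    rw [Finset.sum_eq_single a]
    · rw [Matrix.single_mul_apply_same, one_mul]
    · intro j _ hj
      rw [Matrix.single_mul_apply_of_ne _ _ _ _ _ hj, mul_zero]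
    · intro h; exact absurd (Finset.mem_univ a) h
  rw [h4] at h3
  exact (mul_ne_zero ha hb) h3

variable {T : Type} [CommRing T] [IsLocalRing T]

/-- **[TR-UNIT]**: if the reduction of `t` is the trace of an absolutely irreducible residual
representation, some value of Wiles' function `x` is a unit. -/
theorem exists_isUnit_xF {t : GQ → T} {i2 : T} {c₀ : GQ} (h2 : i2 * 2 = 1)
    (ht0 : t c₀ = 0) (ρbar : ResidualGaloisRep (ResidueField T))
    (habs : ρbar.IsAbsolutelyIrreducible)
    (htr : ∀ σ, LinearMap.trace (ResidueField T) ρbar.V (ρbar.ρ σ) = residue T (t σ)) :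
    ∃ σ₀ τ₀ : GQ, IsUnit (xF t i2 c₀ σ₀ τ₀) := by
  classical
  let k := ResidueField T
  let kb := AlgebraicClosure k
  let φ : T →+* kb := (algebraMap k kb).comp (residue T)
  let R := ρbar.baseChange kb
  let b : Module.Basis (Fin 2) kb R.V := Module.finBasisOfFinrankEq kb R.V R.finrank_eq
  have hburn : Submodule.span kb (Set.range R.ρ) = ⊤ :=
    Fermat.Agent.GAL.PC.burnside_two R.finrank_eq R.ρ habs
  let m : GQ →* Matrix (Fin 2) (Fin 2) kb :=
    (LinearMap.toMatrixAlgEquiv b : Module.End kb R.V →* Matrix (Fin 2) (Fin 2) kb).comp R.ρ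
  have hm : ∀ σ, m σ = LinearMap.toMatrix b b (R.ρ σ) := fun σ => rfl
  have hspan : Submodule.span kb (Set.range m) = ⊤ :=
    Fermat.Agent.GAL.PC.span_range_equiv_comp (LinearMap.toMatrix b b) (fun σ => R.ρ σ) hburn
  have htrm : ∀ σ, (m σ).trace = φ (t σ) := by
    intro σ
    rw [hm, ← LinearMap.trace_eq_matrix_trace kb b]
    have h1 : R.ρ σ = (ρbar.ρ σ).baseChange kb := rfl
    rw [h1, LinearMap.trace_baseChange, htr]
    rfl
  have hj : φ i2 * 2 = 1 := by
    have := congrArg φ h2
    rwa [map_mul, map_ofNat, map_one] at this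
  let P₁ : Matrix (Fin 2) (Fin 2) kb := φ i2 • (1 + m c₀)
  let P₂ : Matrix (Fin 2) (Fin 2) kb := φ i2 • (1 - m c₀)
  have hP1 : P₁.trace ≠ 0 := by
    have : P₁.trace = 1 := by
      simp only [P₁, Matrix.trace_smul, Matrix.trace_add, Matrix.trace_one, htrm, ht0, map_zero,
        Fintype.card_fin, add_zero, smul_eq_mul]
      exact_mod_cast hj
    rw [this]; exact one_ne_zero
  have hP2 : P₂.trace ≠ 0 := by
    have : P₂.trace = 1 := by
      simp only [P₂, Matrix.trace_smul, Matrix.trace_sub, Matrix.trace_one, htrm, ht0, map_zero,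
        Fintype.card_fin, sub_zero, smul_eq_mul]
      exact_mod_cast hj
    rw [this]; exact one_ne_zero
  obtain ⟨g, g', hgg⟩ := exists_trace_ne_zero m hspan P₁ P₂ hP1 hP2
  refine ⟨g, g', ?_⟩
  have hx : φ (xF t i2 c₀ g g') = (P₁ * m g * P₂ * m g').trace := by
    have e : P₁ * m g * P₂ * m g' = (φ i2 * φ i2) • (m (g * g') + m (c₀ * g * g')
        - m (g * c₀ * g') - m (c₀ * g * c₀ * g')) := by
      simp only [P₁, P₂, map_mul, smul_mul_assoc, mul_smul_comm, smul_smul]
      congr 1
      have aux : ∀ A B C : Matrix (Fin 2) (Fin 2) kb,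
          (1 + A) * B * (1 - A) * C = B * C + A * B * C - B * A * C - A * B * A * C := by
        intro A B C
        simp only [add_mul, mul_sub, sub_mul, one_mul, mul_one, mul_assoc]
        abel
      exact aux _ _ _
    rw [e, xF_eq, Matrix.trace_smul, Matrix.trace_sub, Matrix.trace_sub, Matrix.trace_add, htrm,
      htrm, htrm, htrm, smul_eq_mul]
    simp only [map_mul, map_sub, map_add]
  by_contra hnu
  apply hgg
  rw [← hx]
  have : residue T (xF t i2 c₀ g g') = 0 := (residue_eq_zero_iff _).2 hnu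
  show algebraMap k kb (residue T (xF t i2 c₀ g g')) = 0
  rw [this, map_zero]

end Fermat.Agent.TW.TR
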